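import Mathlib

/-!
# S25 / HILB / H4, part 1 (helper371): Nakayama for nilpotent ideals and base change along a
surjection `R → S` with nilpotent kernel

Everything is stated for `[Algebra R S]` with
`hsurj : Function.Surjective (algebraMap R S)` and
`hnil : IsNilpotent (RingHom.ker (algebraMap R S))` (ideal-nilpotent: `I ^ k = 0`; this covers the
square-zero case `I ^ 2 = 0`).  No finiteness or noetherian hypotheses.
-/

set_option autoImplicit false

open TensorProduct

namespace Fermat.Agent.S25.H371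

section Nakayama

variable {R : Type*} [CommRing R] {M : Type*} [AddCommGroup M] [Module R M]

/-- Nakayama for a nilpotent ideal (no finiteness): `N ≤ I • N` forces `N = ⊥`. -/
theorem eq_bot_of_le_smul_of_isNilpotent {I : Ideal R} (hI : IsNilpotent I)
    {N : Submodule R M} (h : N ≤ I • N) : N = ⊥ := by
  obtain ⟨k, hk⟩ := hI
  have key : ∀ j : ℕ, N ≤ I ^ j • N := by
    intro j
    induction j with
    | zero => simp
    | succ j ih =>
      calc N ≤ I • N := h
        _ ≤ I • (I ^ j • N) := Submodule.smul_mono le_rfl ih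
        _ = I ^ (j + 1) • N := by rw [← Submodule.mul_smul, ← pow_succ']
  have h2 := key k
  rw [hk] at h2
  have h3 : (0 : Ideal R) • N = ⊥ := by
    rw [Ideal.zero_eq_bot, Submodule.bot_smul]
  rw [h3] at h2
  exact le_bot_iff.mp h2

/-- Relative Nakayama for a nilpotent ideal (no finiteness): `N ⊔ I • ⊤ = ⊤` forces `N = ⊤`. -/
theorem eq_top_of_sup_smul_top_eq_top_of_isNilpotent {I : Ideal R} (hI : IsNilpotent I)
    {N : Submodule R M} (h : N ⊔ I • (⊤ : Submodule R M) = ⊤) : N = ⊤ := by
  obtain ⟨k, hk⟩ := hI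
  have key : ∀ j : ℕ, N ⊔ I ^ j • (⊤ : Submodule R M) = ⊤ := by
    intro j
    induction j with
    | zero => simp
    | succ j ih =>
      rw [eq_top_iff]
      calc (⊤ : Submodule R M) = N ⊔ I • (⊤ : Submodule R M) := h.symm
        _ = N ⊔ I • (N ⊔ I ^ j • (⊤ : Submodule R M)) := by rw [ih]
        _ = N ⊔ (I • N ⊔ I • (I ^ j • (⊤ : Submodule R M))) := by rw [Submodule.smul_sup]
        _ ≤ N ⊔ I ^ (j + 1) • (⊤ : Submodule R M) := by
          rw [← Submodule.mul_smul, ← pow_succ']
          refine sup_le le_sup_left (sup_le ?_ le_sup_right)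
          exact le_trans Submodule.smul_le_right le_sup_left
  have h2 := key k
  rw [hk, Ideal.zero_eq_bot, Submodule.bot_smul, sup_bot_eq] at h2
  exact h2

end Nakayama

section BaseChange

variable {R S : Type*} [CommRing R] [CommRing S] [Algebra R S]
variable {M : Type*} [AddCommGroup M] [Module R M]
variable {N : Type*} [AddCommGroup N] [Module R N]

/-- Elements of `I • M` die in `S ⊗[R] M`, `I = ker (R → S)`. -/
theorem one_tmul_eq_zero_of_mem_smul {m : M}
    (hm : m ∈ RingHom.ker (algebraMap R S) • (⊤ : Submodule R M)) :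
    (1 : S) ⊗ₜ[R] m = 0 := by
  refine Submodule.smul_induction_on hm ?_ ?_
  · intro a ha n _
    rw [RingHom.mem_ker] at ha
    rw [← TensorProduct.smul_tmul, Algebra.smul_def, ha, zero_mul, TensorProduct.zero_tmul]
  · intro x y hx hy
    rw [TensorProduct.tmul_add, hx, hy, add_zero]

/-- If `R → S` is surjective, every element of `S ⊗[R] M` is a pure tensor `1 ⊗ m`. -/
theorem exists_one_tmul_eq (hsurj : Function.Surjective (algebraMap R S)) (x : S ⊗[R] M) :
    ∃ m : M, (1 : S) ⊗ₜ[R] m = x := by
  induction x using TensorProduct.induction_on with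
  | zero => exact ⟨0, by simp⟩
  | tmul s m =>
    obtain ⟨r, rfl⟩ := hsurj s
    refine ⟨r • m, ?_⟩
    rw [← TensorProduct.smul_tmul, Algebra.smul_def, mul_one]
  | add x y hx hy =>
    obtain ⟨m, rfl⟩ := hx
    obtain ⟨m', rfl⟩ := hy
    exact ⟨m + m', by rw [TensorProduct.tmul_add]⟩

/-- If `R → S` is surjective with kernel `I`, then `1 ⊗ m = 0` in `S ⊗[R] M` iff `m ∈ I • M`. -/
theorem one_tmul_eq_zero_iff (hsurj : Function.Surjective (algebraMap R S)) {m : M} :
    (1 : S) ⊗ₜ[R] m = 0 ↔ m ∈ RingHom.ker (algebraMap R S) • (⊤ : Submodule R M) := by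
  refine ⟨fun h => ?_, one_tmul_eq_zero_of_mem_smul⟩
  set I := RingHom.ker (algebraMap R S) with hI
  -- `S ≃ R ⧸ I` as `R`-algebras
  let e : (R ⧸ RingHom.ker (Algebra.ofId R S)) ≃ₐ[R] S :=
    Ideal.quotientKerAlgEquivOfSurjective (f := Algebra.ofId R S) hsurj
  have hker : RingHom.ker (Algebra.ofId R S) = I := rfl
  let t : S ⊗[R] M ≃ₗ[R] (R ⧸ RingHom.ker (Algebra.ofId R S)) ⊗[R] M :=
    TensorProduct.congr e.symm.toLinearEquiv (LinearEquiv.refl R M)
  have h1 : t ((1 : S) ⊗ₜ[R] m) = (1 : R ⧸ RingHom.ker (Algebra.ofId R S)) ⊗ₜ[R] m := by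
    simp [t]
  have h2 : (1 : R ⧸ RingHom.ker (Algebra.ofId R S)) ⊗ₜ[R] m = 0 := by
    rw [← h1, h, map_zero]
  have h3 := congrArg (TensorProduct.quotTensorEquivQuotSMul M
    (RingHom.ker (Algebra.ofId R S))) h2
  rw [map_zero] at h3
  have h4 : (TensorProduct.quotTensorEquivQuotSMul M (RingHom.ker (Algebra.ofId R S)))
      ((1 : R ⧸ RingHom.ker (Algebra.ofId R S)) ⊗ₜ[R] m) =
      Submodule.Quotient.mk m := by
    have : (1 : R ⧸ RingHom.ker (Algebra.ofId R S)) =
        Ideal.Quotient.mk (RingHom.ker (Algebra.ofId R S)) 1 := rfl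
    rw [this, TensorProduct.quotTensorEquivQuotSMul_mk_tmul, one_smul]
  rw [h4, Submodule.Quotient.mk_eq_zero] at h3
  exact h3

/-- Surjectivity can be checked after base change along a surjection with nilpotent kernel. -/
theorem surjective_of_baseChange_surjective
    (hsurj : Function.Surjective (algebraMap R S))
    (hnil : IsNilpotent (RingHom.ker (algebraMap R S)))
    (g : M →ₗ[R] N) (hg : Function.Surjective (g.baseChange S)) : Function.Surjective g := by
  rw [← LinearMap.range_eq_top]
  apply eq_top_of_sup_smul_top_eq_top_of_isNilpotent hnil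
  rw [eq_top_iff]
  intro n _
  obtain ⟨x, hx⟩ := hg ((1 : S) ⊗ₜ[R] n)
  obtain ⟨m, rfl⟩ := exists_one_tmul_eq hsurj x
  rw [LinearMap.baseChange_tmul] at hx
  have h0 : (1 : S) ⊗ₜ[R] (n - g m) = 0 := by
    rw [TensorProduct.tmul_sub, hx, sub_self]
  have h1 := (one_tmul_eq_zero_iff hsurj).mp h0
  have : n = g m + (n - g m) := by abel
  rw [this]
  exact Submodule.add_mem_sup (LinearMap.mem_range_self g m) h1

/-- Injectivity can be checked after base change along a surjection with nilpotent kernel,
for a surjective map onto a projective module. -/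
theorem injective_of_baseChange_injective [Module.Projective R N]
    (hsurj : Function.Surjective (algebraMap R S))
    (hnil : IsNilpotent (RingHom.ker (algebraMap R S)))
    (g : M →ₗ[R] N) (hgs : Function.Surjective g)
    (hg : Function.Injective (g.baseChange S)) : Function.Injective g := by
  obtain ⟨s, hs⟩ := Module.projective_lifting_property g LinearMap.id hgs
  rw [← LinearMap.ker_eq_bot]
  apply eq_bot_of_le_smul_of_isNilpotent hnil
  intro k hk
  rw [LinearMap.mem_ker] at hk
  -- the projection onto the kernel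
  let π : M →ₗ[R] M := LinearMap.id - s ∘ₗ g
  have hπk : π k = k := by simp [π, hk]
  have hπ : ∀ m, π m ∈ LinearMap.ker g := by
    intro m
    have : g (s (g m)) = g m := by
      have := LinearMap.congr_fun hs (g m)
      simpa using this
    simp [π, LinearMap.mem_ker, this]
  have h0 : (1 : S) ⊗ₜ[R] k = 0 := by
    apply hg
    rw [LinearMap.baseChange_tmul, hk, TensorProduct.tmul_zero, map_zero]
  have h1 := (one_tmul_eq_zero_iff hsurj).mp h0
  have h2 : π k ∈ Submodule.map π (RingHom.ker (algebraMap R S) • (⊤ : Submodule R M)) :=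
    Submodule.mem_map_of_mem h1
  rw [Submodule.map_smul'', hπk] at h2
  refine Submodule.smul_mono le_rfl ?_ h2
  rintro _ ⟨m, -, rfl⟩
  exact hπ m

/-- Bijectivity can be checked after base change along a surjection with nilpotent kernel,
if the target is projective. -/
theorem bijective_of_baseChange_bijective [Module.Projective R N]
    (hsurj : Function.Surjective (algebraMap R S))
    (hnil : IsNilpotent (RingHom.ker (algebraMap R S)))
    (g : M →ₗ[R] N) (hg : Function.Bijective (g.baseChange S)) : Function.Bijective g := by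
  have h1 := surjective_of_baseChange_surjective hsurj hnil g hg.2
  exact ⟨injective_of_baseChange_injective hsurj hnil g h1 hg.1, h1⟩

/-- **H4 (c)**: any `R`-linear lift of an isomorphism `S ⊗ M ≃ S ⊗ N` (with `N` projective) is
an isomorphism. -/
theorem exists_linearEquiv_of_baseChange_eq [Module.Projective R N]
    (hsurj : Function.Surjective (algebraMap R S))
    (hnil : IsNilpotent (RingHom.ker (algebraMap R S)))
    (g : M →ₗ[R] N) (φ : S ⊗[R] M ≃ₗ[S] S ⊗[R] N)
    (hg : g.baseChange S = (φ : S ⊗[R] M →ₗ[S] S ⊗[R] N)) :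
    ∃ e : M ≃ₗ[R] N, (e : M →ₗ[R] N) = g := by
  have hb : Function.Bijective (g.baseChange S) := by
    rw [hg]
    exact φ.bijective
  exact ⟨LinearEquiv.ofBijective g (bijective_of_baseChange_bijective hsurj hnil g hb), rfl⟩

/-- Lifting of linear maps from a projective module along `R → S` surjective. -/
theorem exists_linearMap_baseChange_eq [Module.Projective R M]
    (hsurj : Function.Surjective (algebraMap R S))
    (φ : S ⊗[R] M →ₗ[S] S ⊗[R] N) :
    ∃ g : M →ₗ[R] N, g.baseChange S = φ := by
  have hmk : Function.Surjective (TensorProduct.mk R S N 1) := by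
    intro x
    obtain ⟨n, hn⟩ := exists_one_tmul_eq hsurj x
    exact ⟨n, hn⟩
  obtain ⟨g, hg⟩ := Module.projective_lifting_property (TensorProduct.mk R S N 1)
    ((φ.restrictScalars R) ∘ₗ (TensorProduct.mk R S M 1)) hmk
  refine ⟨g, ?_⟩
  apply TensorProduct.AlgebraTensorModule.ext
  intro s m
  have h1 := LinearMap.congr_fun hg m
  simp only [LinearMap.coe_comp, Function.comp_apply, TensorProduct.mk_apply,
    LinearMap.coe_restrictScalars] at h1
  have h2 : s ⊗ₜ[R] m = s • ((1 : S) ⊗ₜ[R] m) := by
    rw [TensorProduct.smul_tmul', smul_eq_mul, mul_one]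
  have h3 : s ⊗ₜ[R] g m = s • ((1 : S) ⊗ₜ[R] g m) := by
    rw [TensorProduct.smul_tmul', smul_eq_mul, mul_one]
  rw [LinearMap.baseChange_tmul, h2, map_smul, ← h1, h3]

/-- **H4 (b)**: isomorphisms between projective modules lift along a surjection `R → S` with
nilpotent kernel: every `S`-linear isomorphism `S ⊗ M ≃ S ⊗ N` is the base change of an
`R`-linear isomorphism `M ≃ N`. -/
theorem exists_linearEquiv_baseChange_eq [Module.Projective R M] [Module.Projective R N]
    (hsurj : Function.Surjective (algebraMap R S))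
    (hnil : IsNilpotent (RingHom.ker (algebraMap R S)))
    (φ : S ⊗[R] M ≃ₗ[S] S ⊗[R] N) :
    ∃ e : M ≃ₗ[R] N, (e : M →ₗ[R] N).baseChange S = (φ : S ⊗[R] M →ₗ[S] S ⊗[R] N) := by
  obtain ⟨g, hg⟩ := exists_linearMap_baseChange_eq hsurj (φ : S ⊗[R] M →ₗ[S] S ⊗[R] N)
  obtain ⟨e, he⟩ := exists_linearEquiv_of_baseChange_eq hsurj hnil g φ hg
  exact ⟨e, by rw [he, hg]⟩

/-- Pointwise form of `exists_linearEquiv_baseChange_eq`. -/
theorem exists_linearEquiv_one_tmul [Module.Projective R M] [Module.Projective R N]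
    (hsurj : Function.Surjective (algebraMap R S))
    (hnil : IsNilpotent (RingHom.ker (algebraMap R S)))
    (φ : S ⊗[R] M ≃ₗ[S] S ⊗[R] N) :
    ∃ e : M ≃ₗ[R] N, ∀ m : M, φ ((1 : S) ⊗ₜ[R] m) = (1 : S) ⊗ₜ[R] e m := by
  obtain ⟨e, he⟩ := exists_linearEquiv_baseChange_eq hsurj hnil φ
  refine ⟨e, fun m => ?_⟩
  have := LinearMap.congr_fun he ((1 : S) ⊗ₜ[R] m)
  simpa using this.symm

end BaseChange

end Fermat.Agent.S25.H371
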