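import Mathlib
import Fermat.Agent.S25.H371.NilNakayama

/-!
# S25 / HILB / H4, part 2 (helper371): lifting finitely generated projective and invertible
modules along a surjection `R → S` with nilpotent kernel
-/

set_option autoImplicit false

open TensorProduct

namespace Fermat.Agent.S25.H371

universe u v w

section BaseChangeEquiv

variable {R : Type u} {S : Type v} [CommRing R] [CommRing S] [Algebra R S]
variable {M : Type*} [AddCommGroup M] [Module R M]
variable {P : Type*} [AddCommGroup P] [Module R P] [Module S P] [IsScalarTower R S P]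

/-- If `R → S` is surjective with kernel `I` and `α : M → P` is a surjective `R`-linear map to an
`S`-module with `ker α ≤ I • M`, then `P` is the base change of `M`. -/
theorem liftBaseChange_bijective_of_surjective_of_ker_le
    (hsurj : Function.Surjective (algebraMap R S)) (α : M →ₗ[R] P)
    (hα : Function.Surjective α)
    (hker : LinearMap.ker α ≤ RingHom.ker (algebraMap R S) • (⊤ : Submodule R M)) :
    Function.Bijective (α.liftBaseChange S) := by
  constructor
  · rw [injective_iff_map_eq_zero]
    intro x hx
    obtain ⟨m, rfl⟩ := exists_one_tmul_eq hsurj x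
    rw [LinearMap.liftBaseChange_one_tmul] at hx
    exact one_tmul_eq_zero_of_mem_smul (hker (LinearMap.mem_ker.mpr hx))
  · intro p
    obtain ⟨m, rfl⟩ := hα p
    exact ⟨(1 : S) ⊗ₜ[R] m, LinearMap.liftBaseChange_one_tmul S α m⟩

end BaseChangeEquiv

section MatrixNil

variable {R : Type u} {S : Type v} [CommRing R] [CommRing S]

/-- The entries of the `k`-th power of a matrix with entries in `I` lie in `I ^ k`. -/
theorem matrix_pow_apply_mem_pow {n : Type*} [Fintype n] [DecidableEq n] (I : Ideal R)
    (A : Matrix n n R) (hA : ∀ i j, A i j ∈ I) (k : ℕ) : ∀ i j, (A ^ k) i j ∈ I ^ k := by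
  induction k with
  | zero =>
    intro i j
    simp
  | succ k ih =>
    intro i j
    rw [pow_succ A k, Matrix.mul_apply, pow_succ I k]
    exact Ideal.sum_mem _ fun l _ => Ideal.mul_mem_mul (ih i l) (hA l j)

/-- A matrix in the kernel of `Matrix n n R → Matrix n n S` is nilpotent if `ker (R → S)` is a
nilpotent ideal. -/
theorem isNilpotent_of_mem_ker_mapMatrix {n : Type*} [Fintype n] [DecidableEq n] (f : R →+* S)
    (hnil : IsNilpotent (RingHom.ker f)) (A : Matrix n n R)
    (hA : A ∈ RingHom.ker (f.mapMatrix : Matrix n n R →+* Matrix n n S)) : IsNilpotent A := by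
  obtain ⟨k, hk⟩ := hnil
  refine ⟨k, ?_⟩
  have hA' : ∀ i j, A i j ∈ RingHom.ker f := by
    intro i j
    rw [RingHom.mem_ker] at hA ⊢
    have := congrFun (congrFun hA i) j
    simpa using this
  have h := matrix_pow_apply_mem_pow (RingHom.ker f) A hA' k
  ext i j
  have := h i j
  rw [hk] at this
  simpa using this

end MatrixNil

section ProjectiveLift

variable {R : Type u} {S : Type v} [CommRing R] [CommRing S] [Algebra R S]

/-- **H4 (a)**, version with a given compatible `R`-module structure on `P`:
a finitely generated projective `S`-module is the base change of a finitely generated projective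
`R`-module, if `R → S` is surjective with nilpotent kernel. -/
theorem exists_projective_lift_of_isScalarTower
    (hsurj : Function.Surjective (algebraMap R S))
    (hnil : IsNilpotent (RingHom.ker (algebraMap R S)))
    (P : Type w) [AddCommGroup P] [Module S P] [Module R P] [IsScalarTower R S P]
    [Module.Finite S P] [Module.Projective S P] :
    ∃ (M : Type u) (_ : AddCommGroup M) (_ : Module R M), Module.Finite R M ∧
      Module.Projective R M ∧ ∃ α : M →ₗ[R] P, Function.Bijective (α.liftBaseChange S) := by
  classical
  obtain ⟨n, π, ι, hπ, -, hπι⟩ := Module.Finite.exists_comp_eq_id_of_projective S P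
  -- the idempotent endomorphism of `S^n` and its matrix
  set e : (Fin n → S) →ₗ[S] (Fin n → S) := ι ∘ₗ π with he
  have hee : e ∘ₗ e = e := by
    rw [he, LinearMap.comp_assoc, ← LinearMap.comp_assoc π ι, hπι, LinearMap.id_comp]
  set E : Matrix (Fin n) (Fin n) S := LinearMap.toMatrix' e with hE
  have hEid : IsIdempotentElem E := by
    rw [IsIdempotentElem, hE, ← LinearMap.toMatrix'_mul, Module.End.mul_eq_comp, hee]
  let f : Matrix (Fin n) (Fin n) R →+* Matrix (Fin n) (Fin n) S := (algebraMap R S).mapMatrix
  have hErange : E ∈ f.range := by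
    choose g hg using hsurj
    refine ⟨Matrix.of fun i j => g (E i j), ?_⟩
    ext i j
    simp [f, hg]
  obtain ⟨E', hE'id, hE'⟩ := exists_isIdempotentElem_eq_of_ker_isNilpotent f
    (fun A hA => isNilpotent_of_mem_ker_mapMatrix (algebraMap R S) hnil A hA) E hErange hEid
  set e' : (Fin n → R) →ₗ[R] (Fin n → R) := Matrix.toLin' E' with he'
  have he'e' : ∀ x, e' (e' x) = e' x := by
    intro x
    rw [he', ← LinearMap.comp_apply, ← Matrix.toLin'_mul, hE'id.eq]
  -- reduction `R^n → S^n`
  let red : (Fin n → R) →ₗ[R] (Fin n → S) := (Algebra.linearMap R S).compLeft (Fin n)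
  have hred : ∀ x, red (e' x) = e (red x) := by
    intro x
    have h1 : e = Matrix.toLin' E := by rw [hE, Matrix.toLin'_toMatrix']
    rw [h1, ← hE']
    ext i
    show (algebraMap R S) ((Matrix.toLin' E') x i) =
      (Matrix.toLin' (E'.map (algebraMap R S))) (fun j => algebraMap R S (x j)) i
    rw [Matrix.toLin'_apply, Matrix.toLin'_apply]
    exact RingHom.map_mulVec (algebraMap R S) E' x i
  -- the lifted module
  let M : Submodule R (Fin n → R) := LinearMap.range e'
  have hMfix : ∀ m : M, e' (m : Fin n → R) = m := by
    rintro ⟨_, x, rfl⟩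
    exact he'e' x
  have hfin : Module.Finite R M := Module.Finite.range e'
  have hproj : Module.Projective R M := by
    refine Module.Projective.of_split M.subtype e'.rangeRestrict ?_
    ext m : 2
    exact hMfix m
  let α : M →ₗ[R] P := (π.restrictScalars R) ∘ₗ red ∘ₗ M.subtype
  have hαsurj : Function.Surjective α := by
    intro p
    choose g hg using hsurj
    let x : Fin n → R := fun j => g (ι p j)
    have hx : red x = ι p := by
      ext j
      simp [red, x, hg]
    refine ⟨⟨e' x, LinearMap.mem_range_self e' x⟩, ?_⟩
    simp only [α, LinearMap.coe_comp, Function.comp_apply, Submodule.subtype_apply,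
      LinearMap.coe_restrictScalars]
    rw [hred, hx, he]
    simp only [LinearMap.coe_comp, Function.comp_apply]
    have h2 : π (ι p) = p := by
      have := LinearMap.congr_fun hπι p
      simpa using this
    rw [h2, h2]
  have hαker : LinearMap.ker α ≤ RingHom.ker (algebraMap R S) • (⊤ : Submodule R M) := by
    intro m hm
    rw [LinearMap.mem_ker] at hm
    simp only [α, LinearMap.coe_comp, Function.comp_apply, Submodule.subtype_apply,
      LinearMap.coe_restrictScalars] at hm
    -- `red m = 0`
    have h1 : red (m : Fin n → R) = 0 := by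
      have h2 : red (m : Fin n → R) = e (red (m : Fin n → R)) := by
        rw [← hred, hMfix]
      rw [h2, he]
      simp only [LinearMap.coe_comp, Function.comp_apply]
      rw [hm, map_zero]
    have hcoord : ∀ j, (m : Fin n → R) j ∈ RingHom.ker (algebraMap R S) := by
      intro j
      rw [RingHom.mem_ker]
      have := congrFun h1 j
      simpa [red] using this
    -- `m = ∑ m_j • e' (single j 1)`
    have hm_eq : m = ∑ j, ((m : Fin n → R) j) • (e'.rangeRestrict (Pi.single j (1 : R))) := by
      apply Subtype.ext
      have h3 : (m : Fin n → R) = ∑ j, ((m : Fin n → R) j) • (Pi.single j (1 : R) : Fin n → R) := by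
        ext i
        simp [Finset.sum_apply, Pi.single_apply]
      have h4 : (m : Fin n → R) =
          ∑ j, ((m : Fin n → R) j) • e' (Pi.single j (1 : R) : Fin n → R) := by
        calc (m : Fin n → R) = e' (m : Fin n → R) := (hMfix m).symm
          _ = e' (∑ j, ((m : Fin n → R) j) • (Pi.single j (1 : R) : Fin n → R)) :=
              congrArg e' h3
          _ = ∑ j, ((m : Fin n → R) j) • e' (Pi.single j (1 : R) : Fin n → R) := by
              rw [map_sum]
              exact Finset.sum_congr rfl fun j _ => map_smul e' _ _
      rw [Submodule.coe_sum]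
      refine h4.trans (Finset.sum_congr rfl fun j _ => ?_)
      rfl
    rw [hm_eq]
    exact Submodule.sum_mem _ fun j _ =>
      Submodule.smul_mem_smul (hcoord j) Submodule.mem_top
  exact ⟨M, inferInstance, inferInstance, hfin, hproj, α,
    liftBaseChange_bijective_of_surjective_of_ker_le hsurj α hαsurj hαker⟩

/-- **H4 (a)**: a finitely generated projective `S`-module is the base change of a finitely
generated projective `R`-module, if `R → S` is surjective with nilpotent kernel. -/
theorem exists_projective_lift
    (hsurj : Function.Surjective (algebraMap R S))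
    (hnil : IsNilpotent (RingHom.ker (algebraMap R S)))
    (P : Type w) [AddCommGroup P] [Module S P] [Module.Finite S P] [Module.Projective S P] :
    ∃ (M : Type u) (_ : AddCommGroup M) (_ : Module R M), Module.Finite R M ∧
      Module.Projective R M ∧ Nonempty (S ⊗[R] M ≃ₗ[S] P) := by
  let _ : Module R P := Module.compHom P (algebraMap R S)
  have : IsScalarTower R S P := IsScalarTower.of_algebraMap_smul fun _ _ => rfl
  obtain ⟨M, i1, i2, hfin, hproj, α, hα⟩ :=
    exists_projective_lift_of_isScalarTower hsurj hnil P
  exact ⟨M, i1, i2, hfin, hproj, ⟨LinearEquiv.ofBijective (α.liftBaseChange S) hα⟩⟩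

end ProjectiveLift

section InvertibleLift

variable {R : Type u} {S : Type v} [CommRing R] [CommRing S] [Algebra R S]

/-- If `M`, `M'` are projective `R`-modules whose base changes to `S` are mutually inverse
(`(S ⊗ M) ⊗_S (S ⊗ M') ≃ S`), then `M ⊗ M' ≃ R`; in particular both are invertible. -/
theorem nonempty_tensor_linearEquiv_of_baseChange
    (hsurj : Function.Surjective (algebraMap R S))
    (hnil : IsNilpotent (RingHom.ker (algebraMap R S)))
    (M M' : Type*) [AddCommGroup M] [Module R M] [AddCommGroup M'] [Module R M']
    [Module.Projective R M] [Module.Projective R M']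
    (φ : (S ⊗[R] M) ⊗[S] (S ⊗[R] M') ≃ₗ[S] S) :
    Nonempty (M ⊗[R] M' ≃ₗ[R] R) := by
  let ψ : S ⊗[R] (M ⊗[R] M') ≃ₗ[S] S ⊗[R] R :=
    (TensorProduct.AlgebraTensorModule.distribBaseChange R S M M') ≪≫ₗ φ ≪≫ₗ
      (TensorProduct.AlgebraTensorModule.rid R S S).symm
  obtain ⟨e, -⟩ := exists_linearEquiv_baseChange_eq hsurj hnil ψ
  exact ⟨e⟩

/-- A projective `R`-module whose base change to `S` is invertible is invertible, if `R → S` is
surjective with nilpotent kernel. -/
theorem invertible_of_baseChange_invertible
    (hsurj : Function.Surjective (algebraMap R S))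
    (hnil : IsNilpotent (RingHom.ker (algebraMap R S)))
    (M : Type*) [AddCommGroup M] [Module R M] [Module.Projective R M]
    [Module.Invertible S (S ⊗[R] M)] : Module.Invertible R M := by
  obtain ⟨M', i1, i2, -, hproj, ⟨ε⟩⟩ :=
    exists_projective_lift hsurj hnil (Module.Dual S (S ⊗[R] M))
  let φ : (S ⊗[R] M) ⊗[S] (S ⊗[R] M') ≃ₗ[S] S :=
    (TensorProduct.congr (LinearEquiv.refl S (S ⊗[R] M)) ε) ≪≫ₗ
      (TensorProduct.comm S _ _) ≪≫ₗ (Module.Invertible.linearEquiv S (S ⊗[R] M))
  obtain ⟨e⟩ := nonempty_tensor_linearEquiv_of_baseChange hsurj hnil M M' φ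
  exact Module.Invertible.left e

/-- **H4 (a')**: an invertible `S`-module is the base change of an invertible `R`-module, if
`R → S` is surjective with nilpotent kernel. -/
theorem exists_invertible_lift
    (hsurj : Function.Surjective (algebraMap R S))
    (hnil : IsNilpotent (RingHom.ker (algebraMap R S)))
    (P : Type w) [AddCommGroup P] [Module S P] [Module.Invertible S P] :
    ∃ (M : Type u) (_ : AddCommGroup M) (_ : Module R M), Module.Invertible R M ∧
      Nonempty (S ⊗[R] M ≃ₗ[S] P) := by
  obtain ⟨M, i1, i2, -, hproj, ⟨ε⟩⟩ := exists_projective_lift hsurj hnil P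
  have : Module.Invertible S (S ⊗[R] M) := Module.Invertible.congr ε.symm
  exact ⟨M, i1, i2, invertible_of_baseChange_invertible hsurj hnil M, ⟨ε⟩⟩

end InvertibleLift

end Fermat.Agent.S25.H371
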