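import Mathlib
import Fermat.Agent.S25.DefsAlg
import Fermat.Agent.S25.H371.NilLift

/-!
# S25 / ALGDEF (helper371): toolkit for the frozen `IsSemilinearBaseChange`

Conversions between `IsSemilinearBaseChange ρ b` (frozen in `DefsAlg.lean`) and Mathlib's
`IsBaseChange`, composition / cancellation / universal property in semilinear form, and the
lifting lemmas H4 in semilinear form.
-/

set_option autoImplicit false
set_option linter.style.haveILetI false
open TensorProduct

namespace Fermat.Agent.S25.H371

universe u

section Conv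

variable {R R' : Type u} [CommRing R] [CommRing R']
variable {N N' : Type u} [AddCommGroup N] [Module R N] [AddCommGroup N'] [Module R' N']

/-- auxiliary: transport of `IsSemilinearBaseChange` to arbitrary (propositionally equal)
instances. -/
theorem isBaseChange_of_isSemilinearBaseChange_aux (ρ : R →+* R') (b : N →ₛₗ[ρ] N')
    (h : IsSemilinearBaseChange ρ b)
    [alg : Algebra R R'] [mod : Module R N'] [IsScalarTower R R' N']
    (halg : alg = ρ.toAlgebra) (hmod : mod = Module.compHom N' ρ)
    (f : N →ₗ[R] N') (hf : ∀ n, f n = b n) : IsBaseChange R' f := by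
  subst halg hmod
  letI : Algebra R R' := ρ.toAlgebra
  letI : Module R N' := Module.compHom N' ρ
  have hfe : f = { toFun := fun n => b n
                   map_add' := fun m n => b.map_add m n
                   map_smul' := fun r n => LinearMap.map_smulₛₗ b r n } := LinearMap.ext hf
  subst hfe
  exact h

theorem isSemilinearBaseChange_of_isBaseChange_aux (ρ : R →+* R') (b : N →ₛₗ[ρ] N')
    [alg : Algebra R R'] [mod : Module R N'] [IsScalarTower R R' N']
    (halg : alg = ρ.toAlgebra) (hmod : mod = Module.compHom N' ρ)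
    (f : N →ₗ[R] N') (hf : ∀ n, f n = b n) (h : IsBaseChange R' f) :
    IsSemilinearBaseChange ρ b := by
  subst halg hmod
  letI : Algebra R R' := ρ.toAlgebra
  letI : Module R N' := Module.compHom N' ρ
  have hfe : f = { toFun := fun n => b n
                   map_add' := fun m n => b.map_add m n
                   map_smul' := fun r n => LinearMap.map_smulₛₗ b r n } := LinearMap.ext hf
  subst hfe
  exact h

/-- From the frozen `IsSemilinearBaseChange` to Mathlib's `IsBaseChange`, for any ambient
algebra and module structures compatible with `ρ`. -/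
theorem isBaseChange_of_isSemilinearBaseChange
    [Algebra R R'] [Module R N'] [IsScalarTower R R' N']
    (ρ : R →+* R') (hρ : ∀ r, ρ r = algebraMap R R' r) (b : N →ₛₗ[ρ] N')
    (h : IsSemilinearBaseChange ρ b) (f : N →ₗ[R] N') (hf : ∀ n, f n = b n) :
    IsBaseChange R' f := by
  refine isBaseChange_of_isSemilinearBaseChange_aux ρ b h ?_ ?_ f hf
  · exact Algebra.algebra_ext _ _ fun r => (hρ r).symm
  · refine Module.ext' _ _ fun r n => ?_
    change r • n = ρ r • n
    rw [hρ, algebraMap_smul]

/-- From Mathlib's `IsBaseChange` to the frozen `IsSemilinearBaseChange`. -/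
theorem isSemilinearBaseChange_of_isBaseChange
    [Algebra R R'] [Module R N'] [IsScalarTower R R' N']
    (ρ : R →+* R') (hρ : ∀ r, ρ r = algebraMap R R' r) (b : N →ₛₗ[ρ] N')
    (f : N →ₗ[R] N') (hf : ∀ n, f n = b n) (h : IsBaseChange R' f) :
    IsSemilinearBaseChange ρ b := by
  refine isSemilinearBaseChange_of_isBaseChange_aux ρ b ?_ ?_ f hf h
  · exact Algebra.algebra_ext _ _ fun r => (hρ r).symm
  · refine Module.ext' _ _ fun r n => ?_
    change r • n = ρ r • n
    rw [hρ, algebraMap_smul]

end Conv

section Tools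

variable {R S : Type u} [CommRing R] [CommRing S]

/-- The semilinear map underlying a linear map into a module over an algebra. -/
def toSemilinear [Algebra R S] {N P : Type u} [AddCommGroup N] [Module R N] [AddCommGroup P]
    [Module S P] [Module R P] [IsScalarTower R S P] (f : N →ₗ[R] P) :
    N →ₛₗ[algebraMap R S] P where
  toFun := f
  map_add' := f.map_add
  map_smul' r n := by rw [f.map_smul, algebraMap_smul]

@[simp] theorem toSemilinear_apply [Algebra R S] {N P : Type u} [AddCommGroup N] [Module R N]
    [AddCommGroup P] [Module S P] [Module R P] [IsScalarTower R S P] (f : N →ₗ[R] P) (n : N) :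
    toSemilinear (S := S) f n = f n := rfl

theorem isSemilinearBaseChange_toSemilinear [Algebra R S] {N P : Type u} [AddCommGroup N]
    [Module R N] [AddCommGroup P] [Module S P] [Module R P] [IsScalarTower R S P]
    (f : N →ₗ[R] P) (hf : IsBaseChange S f) :
    IsSemilinearBaseChange (algebraMap R S) (toSemilinear (S := S) f) :=
  isSemilinearBaseChange_of_isBaseChange _ (fun _ => rfl) _ f (fun _ => rfl) hf

/-- **L1** invertible modules lift, in semilinear form. -/
theorem exists_invertible_semilinear_lift (ρ : R →+* S) (hs : Function.Surjective ρ)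
    (hn : IsNilpotent (RingHom.ker ρ)) (P : Type u) [AddCommGroup P] [Module S P]
    [Module.Invertible S P] :
    ∃ (N : Type u) (_ : AddCommGroup N) (_ : Module R N), Module.Invertible R N ∧
      ∃ b : N →ₛₗ[ρ] P, IsSemilinearBaseChange ρ b := by
  letI : Algebra R S := ρ.toAlgebra
  obtain ⟨N, i1, i2, hinv, ⟨ε⟩⟩ := exists_invertible_lift (R := R) (S := S) hs hn P
  letI : Module R P := Module.compHom P ρ
  haveI : IsScalarTower R S P :=
    ⟨fun r r' n => by change (ρ r * r') • n = ρ r • (r' • n); rw [mul_smul]⟩
  refine ⟨N, i1, i2, hinv, ?_⟩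
  let f : N →ₗ[R] P := (ε.toLinearMap.restrictScalars R).comp (TensorProduct.mk R S N 1)
  have hf : IsBaseChange S f := IsBaseChange.of_equiv ε (fun x => rfl)
  exact ⟨toSemilinear (S := S) f, isSemilinearBaseChange_toSemilinear f hf⟩

/-- **L1'** finitely generated projective modules lift, in semilinear form. -/
theorem exists_projective_semilinear_lift (ρ : R →+* S) (hs : Function.Surjective ρ)
    (hn : IsNilpotent (RingHom.ker ρ)) (P : Type u) [AddCommGroup P] [Module S P]
    [Module.Finite S P] [Module.Projective S P] :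
    ∃ (N : Type u) (_ : AddCommGroup N) (_ : Module R N), Module.Finite R N ∧
      Module.Projective R N ∧ ∃ b : N →ₛₗ[ρ] P, IsSemilinearBaseChange ρ b := by
  letI : Algebra R S := ρ.toAlgebra
  obtain ⟨N, i1, i2, hfin, hproj, ⟨ε⟩⟩ := exists_projective_lift (R := R) (S := S) hs hn P
  letI : Module R P := Module.compHom P ρ
  haveI : IsScalarTower R S P :=
    ⟨fun r r' n => by change (ρ r * r') • n = ρ r • (r' • n); rw [mul_smul]⟩
  refine ⟨N, i1, i2, hfin, hproj, ?_⟩
  let f : N →ₗ[R] P := (ε.toLinearMap.restrictScalars R).comp (TensorProduct.mk R S N 1)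
  have hf : IsBaseChange S f := IsBaseChange.of_equiv ε (fun x => rfl)
  exact ⟨toSemilinear (S := S) f, isSemilinearBaseChange_toSemilinear f hf⟩

/-- **L2** two projective lifts of the same module are isomorphic, compatibly with the
base-change maps. -/
theorem exists_linearEquiv_of_isSemilinearBaseChange (ρ : R →+* S)
    (hs : Function.Surjective ρ) (hn : IsNilpotent (RingHom.ker ρ))
    {M N P : Type u} [AddCommGroup M] [Module R M] [AddCommGroup N] [Module R N]
    [AddCommGroup P] [Module S P] [Module.Projective R M] [Module.Projective R N]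
    (βM : M →ₛₗ[ρ] P) (βN : N →ₛₗ[ρ] P) (hM : IsSemilinearBaseChange ρ βM)
    (hN : IsSemilinearBaseChange ρ βN) :
    ∃ e : M ≃ₗ[R] N, ∀ m, βN (e m) = βM m := by
  letI : Algebra R S := ρ.toAlgebra
  letI : Module R P := Module.compHom P ρ
  haveI : IsScalarTower R S P :=
    ⟨fun r r' n => by change (ρ r * r') • n = ρ r • (r' • n); rw [mul_smul]⟩
  let fM : M →ₗ[R] P :=
    { toFun := fun n => βM n
      map_add' := fun m n => βM.map_add m n
      map_smul' := fun r n => LinearMap.map_smulₛₗ βM r n }
  let fN : N →ₗ[R] P :=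
    { toFun := fun n => βN n
      map_add' := fun m n => βN.map_add m n
      map_smul' := fun r n => LinearMap.map_smulₛₗ βN r n }
  have hM' : IsBaseChange S fM := hM
  have hN' : IsBaseChange S fN := hN
  obtain ⟨e, he⟩ := exists_linearEquiv_one_tmul (R := R) (S := S) hs hn
    (hM'.equiv ≪≫ₗ hN'.equiv.symm)
  refine ⟨e, fun m => ?_⟩
  have h1 := he m
  rw [LinearEquiv.trans_apply, LinearEquiv.symm_apply_eq, IsBaseChange.equiv_tmul,
    IsBaseChange.equiv_tmul, one_smul, one_smul] at h1
  exact h1.symm

end Tools


section Comp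

variable {R R' R'' : Type u} [CommRing R] [CommRing R'] [CommRing R'']
variable {N N' N'' : Type u} [AddCommGroup N] [Module R N] [AddCommGroup N'] [Module R' N']
  [AddCommGroup N''] [Module R'' N'']

/-- **L3a** composition of semilinear base changes. -/
theorem isSemilinearBaseChange_comp (ρ : R →+* R') (σ : R' →+* R'') (τ : R →+* R'')
    (hτ : ∀ r, τ r = σ (ρ r)) (b : N →ₛₗ[ρ] N') (c : N' →ₛₗ[σ] N'') (d : N →ₛₗ[τ] N'')
    (hd : ∀ n, d n = c (b n)) (hb : IsSemilinearBaseChange ρ b)
    (hc : IsSemilinearBaseChange σ c) : IsSemilinearBaseChange τ d := by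
  letI : Algebra R R' := ρ.toAlgebra
  letI : Algebra R' R'' := σ.toAlgebra
  letI : Algebra R R'' := τ.toAlgebra
  haveI : IsScalarTower R R' R'' := IsScalarTower.of_algebraMap_eq hτ
  letI : Module R N' := Module.compHom N' ρ
  letI : Module R' N'' := Module.compHom N'' σ
  letI : Module R N'' := Module.compHom N'' τ
  haveI : IsScalarTower R R' N' :=
    ⟨fun r r' n => by change (ρ r * r') • n = ρ r • (r' • n); rw [mul_smul]⟩
  haveI : IsScalarTower R' R'' N'' :=
    ⟨fun r r' n => by change (σ r * r') • n = σ r • (r' • n); rw [mul_smul]⟩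
  haveI : IsScalarTower R R'' N'' :=
    ⟨fun r r' n => by change (τ r * r') • n = τ r • (r' • n); rw [mul_smul]⟩
  haveI : IsScalarTower R R' N'' :=
    ⟨fun r r' n => by
      change (σ (ρ r * r')) • n = τ r • (σ r' • n)
      rw [map_mul, mul_smul, hτ]⟩
  let fb : N →ₗ[R] N' :=
    { toFun := fun n => b n
      map_add' := fun m n => b.map_add m n
      map_smul' := fun r n => LinearMap.map_smulₛₗ b r n }
  let fc : N' →ₗ[R'] N'' :=
    { toFun := fun n => c n
      map_add' := fun m n => c.map_add m n
      map_smul' := fun r n => LinearMap.map_smulₛₗ c r n }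
  have hb' : IsBaseChange R' fb := hb
  have hc' : IsBaseChange R'' fc := hc
  have hcomp : IsBaseChange R'' ((fc.restrictScalars R).comp fb) := IsBaseChange.comp hb' hc'
  have key : (show N →ₗ[R] N'' from
      { toFun := fun n => d n
        map_add' := fun m n => d.map_add m n
        map_smul' := fun r n => LinearMap.map_smulₛₗ d r n }) = (fc.restrictScalars R).comp fb :=
    LinearMap.ext fun n => hd n
  change IsBaseChange R'' _
  rw [key]
  exact hcomp

/-- **L3b** cancellation: if `b` and `c ∘ b` are base changes, so is `c`. -/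
theorem isSemilinearBaseChange_of_comp (ρ : R →+* R') (σ : R' →+* R'') (τ : R →+* R'')
    (hτ : ∀ r, τ r = σ (ρ r)) (b : N →ₛₗ[ρ] N') (c : N' →ₛₗ[σ] N'') (d : N →ₛₗ[τ] N'')
    (hd : ∀ n, d n = c (b n)) (hb : IsSemilinearBaseChange ρ b)
    (hdb : IsSemilinearBaseChange τ d) : IsSemilinearBaseChange σ c := by
  letI : Algebra R R' := ρ.toAlgebra
  letI : Algebra R' R'' := σ.toAlgebra
  letI : Algebra R R'' := τ.toAlgebra
  haveI : IsScalarTower R R' R'' := IsScalarTower.of_algebraMap_eq hτ
  letI : Module R N' := Module.compHom N' ρ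
  letI : Module R' N'' := Module.compHom N'' σ
  letI : Module R N'' := Module.compHom N'' τ
  haveI : IsScalarTower R R' N' :=
    ⟨fun r r' n => by change (ρ r * r') • n = ρ r • (r' • n); rw [mul_smul]⟩
  haveI : IsScalarTower R' R'' N'' :=
    ⟨fun r r' n => by change (σ r * r') • n = σ r • (r' • n); rw [mul_smul]⟩
  haveI : IsScalarTower R R'' N'' :=
    ⟨fun r r' n => by change (τ r * r') • n = τ r • (r' • n); rw [mul_smul]⟩
  haveI : IsScalarTower R R' N'' :=
    ⟨fun r r' n => by
      change (σ (ρ r * r')) • n = τ r • (σ r' • n)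
      rw [map_mul, mul_smul, hτ]⟩
  let fb : N →ₗ[R] N' :=
    { toFun := fun n => b n
      map_add' := fun m n => b.map_add m n
      map_smul' := fun r n => LinearMap.map_smulₛₗ b r n }
  let fc : N' →ₗ[R'] N'' :=
    { toFun := fun n => c n
      map_add' := fun m n => c.map_add m n
      map_smul' := fun r n => LinearMap.map_smulₛₗ c r n }
  have hb' : IsBaseChange R' fb := hb
  have key : (show N →ₗ[R] N'' from
      { toFun := fun n => d n
        map_add' := fun m n => d.map_add m n
        map_smul' := fun r n => LinearMap.map_smulₛₗ d r n }) = (fc.restrictScalars R).comp fb :=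
    LinearMap.ext fun n => hd n
  have hdb' : IsBaseChange R'' ((fc.restrictScalars R).comp fb) := by
    rw [← key]
    exact hdb
  exact IsBaseChange.of_comp hb' hdb'

/-- **L4** universal property of a semilinear base change. -/
theorem exists_semilinear_lift (ρ : R →+* R') (σ : R' →+* R'') (τ : R →+* R'')
    (hτ : ∀ r, τ r = σ (ρ r)) (b : N →ₛₗ[ρ] N') (hb : IsSemilinearBaseChange ρ b)
    (g : N →ₛₗ[τ] N'') : ∃ g' : N' →ₛₗ[σ] N'', ∀ n, g' (b n) = g n := by
  letI : Algebra R R' := ρ.toAlgebra
  letI : Module R N' := Module.compHom N' ρ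
  letI : Module R' N'' := Module.compHom N'' σ
  letI : Module R N'' := Module.compHom N'' τ
  haveI : IsScalarTower R R' N' :=
    ⟨fun r r' n => by change (ρ r * r') • n = ρ r • (r' • n); rw [mul_smul]⟩
  haveI : IsScalarTower R R' N'' :=
    ⟨fun r r' n => by
      change (σ (ρ r * r')) • n = τ r • (σ r' • n)
      rw [map_mul, mul_smul, hτ]⟩
  let fb : N →ₗ[R] N' :=
    { toFun := fun n => b n
      map_add' := fun m n => b.map_add m n
      map_smul' := fun r n => LinearMap.map_smulₛₗ b r n }
  let fg : N →ₗ[R] N'' :=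
    { toFun := fun n => g n
      map_add' := fun m n => g.map_add m n
      map_smul' := fun r n => LinearMap.map_smulₛₗ g r n }
  have hb' : IsBaseChange R' fb := hb
  refine ⟨{ toFun := fun n => hb'.lift fg n
            map_add' := fun m n => (hb'.lift fg).map_add m n
            map_smul' := fun r n => (hb'.lift fg).map_smul r n }, fun n => ?_⟩
  exact hb'.lift_eq fg n

/-- Composition of a semilinear base change with a linear equivalence. -/
theorem isSemilinearBaseChange_equiv_comp (ρ : R →+* R') (b : N →ₛₗ[ρ] N')
    {M' : Type u} [AddCommGroup M'] [Module R' M'] (φ : N' ≃ₗ[R'] M') (c : N →ₛₗ[ρ] M')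
    (hc : ∀ n, c n = φ (b n)) (hb : IsSemilinearBaseChange ρ b) :
    IsSemilinearBaseChange ρ c := by
  letI : Algebra R R' := ρ.toAlgebra
  letI : Module R N' := Module.compHom N' ρ
  letI : Module R M' := Module.compHom M' ρ
  haveI : IsScalarTower R R' N' :=
    ⟨fun r r' n => by change (ρ r * r') • n = ρ r • (r' • n); rw [mul_smul]⟩
  haveI : IsScalarTower R R' M' :=
    ⟨fun r r' n => by change (ρ r * r') • n = ρ r • (r' • n); rw [mul_smul]⟩
  let fb : N →ₗ[R] N' :=
    { toFun := fun n => b n
      map_add' := fun m n => b.map_add m n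
      map_smul' := fun r n => LinearMap.map_smulₛₗ b r n }
  have hb' : IsBaseChange R' fb := hb
  change IsBaseChange R' _
  refine IsBaseChange.of_equiv (hb'.equiv ≪≫ₗ φ) fun n => ?_
  rw [LinearEquiv.trans_apply, IsBaseChange.equiv_tmul, one_smul]
  exact (hc n).symm

end Comp

end Fermat.Agent.S25.H371
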