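import Fermat.Agent.S25.H11.ACDefs
import Fermat.Agent.S25.H550.GDBaseChangeLin

/-!
# S25 / ALGCHARTS, leaf PT-BC (helper371): `pointCond_bc`

The point conditions `PointCond x y i G φ₀` of a chart of the algebraic Picard functor are
compatible with base change: if `G'` is a base change of `G` along `ψ : A → A'` then
`PointCond x y i G' (ψ.comp φ₀)`.

Main ingredients (all for `bm : BaseChangeMaps` of `CurveGD.IsBC ψ G G'`):
* `pbc_tcech`        : the maps `b₀, b₁, b₀₁` intertwine the twisted Čech differentials;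
* `pbc_induction`    : `N'` is spanned over `A'` by the image of a semilinear base change;
* `pbc_P0`, `pbc_P1`, `pbc_genModY`, `pbc_mem_secq` : stability of the stages under base change;
* `pbc_map_ptIdeal`  : `(ptIdeal q A).map (A ⊗ B₀ → A' ⊗ B₀) = ptIdeal q A'`
                       (`pbc_ptIdeal_eq`: `ptIdeal q A` is extended from `B₀`);
* `pbc_span_singleton` : `span {s} = J • ⊤ ⇒ span {b s} = J.map ρ • ⊤`;
* `kernel_span_of_surjective`, `pbc_secq_span` : cohomology and base change for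
  `H⁰(G(nE₀ - Σq))` when `H¹ = 0` (right exactness of `⊗`, twice; no flatness needed).
-/

set_option autoImplicit false
set_option linter.style.haveILetI false
set_option linter.unusedSectionVars false

universe u

open scoped TensorProduct

namespace Fermat.Agent.S25.H371

open Fermat.Agent.S25 Fermat.Agent.S25.H11

section AbstractKernel

variable {A A' : Type u} [CommRing A] [CommRing A'] [Algebra A A']
  {M P Q : Type u} [AddCommGroup M] [Module A M] [AddCommGroup P] [Module A P]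
  [AddCommGroup Q] [Module A Q]
  {M' P' : Type u} [AddCommGroup M'] [Module A' M'] [AddCommGroup P'] [Module A' P']

/-- Abstract "cohomology and base change" (right exactness of the tensor product, twice):
if `T₁ : M → P` is onto, `T₂ : M → Q` is onto on `ker T₁`, then every element of
`M' = A' ⊗ M` killed by `A' ⊗ T₁` and by `A' ⊗ T₂` is an `A'`-combination of images of elements of
`ker T₁ ⊓ ker T₂`. -/
theorem kernel_span_of_surjective (E : A' ⊗[A] M ≃ₗ[A'] M') (EP : A' ⊗[A] P →ₗ[A'] P')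
    (hEP : Function.Injective EP) (T₁ : M →ₗ[A] P) (hT₁ : Function.Surjective T₁)
    (T₁' : M' →ₗ[A'] P') (hcomm : ∀ z, EP (T₁.lTensor A' z) = T₁' (E z))
    (T₂ : M →ₗ[A] Q) (hT₂ : ∀ c, ∃ m, T₁ m = 0 ∧ T₂ m = c)
    {t' : M'} (h1 : T₁' t' = 0) (h2 : T₂.lTensor A' (E.symm t') = 0) :
    t' ∈ Submodule.span A' ((fun m : M => E ((1 : A') ⊗ₜ[A] m)) ''
      {m | T₁ m = 0 ∧ T₂ m = 0}) := by
  set z := E.symm t' with hz
  have hz1 : T₁.lTensor A' z = 0 := by
    apply hEP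
    rw [hcomm, hz, LinearEquiv.apply_symm_apply, map_zero]
    exact h1
  have ex1 := lTensor_exact A' (LinearMap.exact_subtype_ker_map T₁) hT₁
  obtain ⟨w, hw⟩ := (ex1 z).1 hz1
  let T₂' : LinearMap.ker T₁ →ₗ[A] Q := T₂ ∘ₗ (LinearMap.ker T₁).subtype
  have hsurj : Function.Surjective T₂' := by
    intro c
    obtain ⟨m, hm1, hm2⟩ := hT₂ c
    exact ⟨⟨m, hm1⟩, hm2⟩
  have hw2 : T₂'.lTensor A' w = 0 := by
    have e1 : T₂'.lTensor A' w = T₂.lTensor A' ((LinearMap.ker T₁).subtype.lTensor A' w) := by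
      rw [← LinearMap.lTensor_comp_apply]
    rw [e1, hw]
    exact h2
  have ex2 := lTensor_exact A' (LinearMap.exact_subtype_ker_map T₂') hsurj
  obtain ⟨v, hv⟩ := (ex2 w).1 hw2
  have key : ∀ v : A' ⊗[A] (LinearMap.ker T₂'),
      E ((LinearMap.ker T₁).subtype.lTensor A' ((LinearMap.ker T₂').subtype.lTensor A' v)) ∈
        Submodule.span A' ((fun m : M => E ((1 : A') ⊗ₜ[A] m)) ''
          {m | T₁ m = 0 ∧ T₂ m = 0}) := by
    intro v
    induction v using TensorProduct.induction_on with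
    | zero => simp
    | tmul s u =>
      rw [LinearMap.lTensor_tmul, LinearMap.lTensor_tmul]
      have hs : s ⊗ₜ[A] ((u : LinearMap.ker T₁) : M) = s • ((1 : A') ⊗ₜ[A] ((u : LinearMap.ker T₁) : M)) := by
        rw [TensorProduct.smul_tmul', smul_eq_mul, mul_one]
      change E (s ⊗ₜ[A] ((u : LinearMap.ker T₁) : M)) ∈ _
      rw [hs, map_smul]
      refine Submodule.smul_mem _ _ (Submodule.subset_span ⟨_, ⟨?_, ?_⟩, rfl⟩)
      · exact LinearMap.mem_ker.1 (u : LinearMap.ker T₁).2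
      · exact LinearMap.mem_ker.1 u.2
    | add z w hz hw =>
      rw [map_add, map_add, map_add]
      exact Submodule.add_mem _ hz hw
  have := key v
  rw [hv, hw, hz, LinearEquiv.apply_symm_apply] at this
  exact this

end AbstractKernel


section ClaimQ

variable {k : Type u} [Field k] {A A' : Type u} [CommRing A] [Algebra k A] [CommRing A']
  [Algebra k A'] [Algebra A A'] (ψ : A →ₐ[k] A') {B : Type u} [CommRing B] [Algebra k B]
  {N N' Q : Type u} [AddCommGroup N] [Module (A ⊗[k] B) N] [Module A N]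
  [IsScalarTower A (A ⊗[k] B) N]
  [AddCommGroup N'] [Module (A' ⊗[k] B) N'] [Module A' N'] [IsScalarTower A' (A' ⊗[k] B) N']
  [AddCommGroup Q] [Module A Q]
  (b : N →ₛₗ[tensorMapLeft k ψ B] N')

/-- Claim Q: if `π : N → Q` kills `J • N`, then `A' ⊗ π` kills (the preimage of)
`(J.map ρ) • N'`. -/
theorem lTensor_eq_zero_of_mem_map_smul (J : Ideal (A ⊗[k] B)) (π : N →ₗ[A] Q)
    (hπ : ∀ r ∈ J, ∀ n : N, π (r • n) = 0)
    (E₀ : A' ⊗[A] N ≃ₗ[A'] N') (hE₀ : ∀ (s : A') (n : N), E₀ (s ⊗ₜ[A] n) = s • b n)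
    {n' : N'} (hn' : n' ∈ (J.map (tensorMapLeft k ψ B)) • (⊤ : Submodule (A' ⊗[k] B) N')) :
    π.lTensor A' (E₀.symm n') = 0 := by
  -- compatibility of `E₀` with multiplication by `r : A ⊗ B`
  have hM : ∀ (r : A ⊗[k] B) (z : A' ⊗[A] N),
      E₀ ((Algebra.lsmul A A N r).lTensor A' z) = tensorMapLeft k ψ B r • E₀ z := by
    intro r z
    induction z using TensorProduct.induction_on with
    | zero => simp
    | tmul s n =>
      rw [LinearMap.lTensor_tmul, hE₀, hE₀, Algebra.lsmul_coe, LinearMap.map_smulₛₗ, smul_comm]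
    | add z w hz hw => rw [map_add, map_add, map_add, smul_add, hz, hw]
  refine Submodule.smul_induction_on hn' ?_ ?_
  · intro r' hr' n'' _
    have key : ∀ n'' : N', π.lTensor A' (E₀.symm (r' • n'')) = 0 := by
      refine Submodule.span_induction (p := fun r' _ => ∀ n'' : N',
        π.lTensor A' (E₀.symm (r' • n'')) = 0) ?_ ?_ ?_ ?_ hr'
      · rintro _ ⟨r, hr, rfl⟩ n''
        have h1 : E₀.symm (tensorMapLeft k ψ B r • n'') =
            (Algebra.lsmul A A N r).lTensor A' (E₀.symm n'') := by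
          rw [LinearEquiv.symm_apply_eq, hM, LinearEquiv.apply_symm_apply]
        rw [h1, ← LinearMap.lTensor_comp_apply]
        have h2 : π ∘ₗ Algebra.lsmul A A N r = 0 := by
          ext n
          rw [LinearMap.comp_apply, Algebra.lsmul_coe, LinearMap.zero_apply]
          exact hπ r hr n
        rw [h2, LinearMap.lTensor_zero, LinearMap.zero_apply]
      · intro n''
        rw [zero_smul, map_zero, map_zero]
      · intro r₁ r₂ _ _ h₁ h₂ n''
        rw [add_smul, map_add, map_add, h₁, h₂, add_zero]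
      · intro c r _ h n''
        rw [smul_eq_mul, mul_comm, mul_smul]
        exact h _
    exact key n''
  · intro u v hu hv
    rw [map_add, map_add, hu, hv, add_zero]

end ClaimQ

section QuotientMap

/-- A quotient of a module by a submodule over a bigger ring, as an abstract `A`-module. -/
theorem exists_quotient_map {A R N : Type u} [CommRing A] [CommRing R] [Algebra A R]
    [AddCommGroup N] [Module R N] [Module A N] [IsScalarTower A R N] (W : Submodule R N) :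
    ∃ (Q : Type u) (_ : AddCommGroup Q) (_ : Module A Q) (π : N →ₗ[A] Q),
      Function.Surjective π ∧ ∀ a, π a = 0 ↔ a ∈ W :=
  ⟨N ⧸ W.restrictScalars A, inferInstance, inferInstance, (W.restrictScalars A).mkQ,
    (W.restrictScalars A).mkQ_surjective, fun a => by
      rw [Submodule.mkQ_apply, Submodule.Quotient.mk_eq_zero, Submodule.restrictScalars_mem]⟩

end QuotientMap

variable {k : Type u} [Field k] {B₀ B₁ B₀₁ : Type u} [CommRing B₀] [CommRing B₁] [CommRing B₀₁]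
  [Algebra k B₀] [Algebra k B₁] [Algebra k B₀₁] [Algebra B₀ B₀₁] [Algebra B₁ B₀₁]
  [IsScalarTower k B₀ B₀₁] [IsScalarTower k B₁ B₀₁]
  {A A' : Type u} [CommRing A] [Algebra k A] [CommRing A'] [Algebra k A']

section Semilinear

variable (ψ : A →ₐ[k] A') {B : Type u} [CommRing B] [Algebra k B]
  {N N' : Type u} [AddCommGroup N] [Module (A ⊗[k] B) N] [Module A N]
  [IsScalarTower A (A ⊗[k] B) N]
  [AddCommGroup N'] [Module (A' ⊗[k] B) N'] [Module A' N'] [IsScalarTower A' (A' ⊗[k] B) N']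

theorem pbc_tensorMapLeft_algebraMap (c : A) :
    tensorMapLeft k ψ B (algebraMap A (A ⊗[k] B) c) = algebraMap A' (A' ⊗[k] B) (ψ c) := rfl

/-- A semilinear map along `A ⊗ B → A' ⊗ B` is `ψ`-semilinear for the `A`-actions. -/
theorem pbc_map_smul_base (b : N →ₛₗ[tensorMapLeft k ψ B] N') (c : A) (n : N) :
    b (c • n) = ψ c • b n := by
  rw [← algebraMap_smul (A ⊗[k] B) c n, LinearMap.map_smulₛₗ, pbc_tensorMapLeft_algebraMap,
    algebraMap_smul]

theorem pbc_tensorMapLeft_one_tmul (t : B) :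
    tensorMapLeft k ψ B ((1 : A) ⊗ₜ[k] t) = (1 : A') ⊗ₜ[k] t := by
  change ψ 1 ⊗ₜ[k] t = _
  rw [map_one]

end Semilinear

section TC

variable {ψ : A →ₐ[k] A'} {G : CurveGD k B₀ B₁ B₀₁ A} {G' : CurveGD k B₀ B₁ B₀₁ A'}
  (bm : GlueDatum.BaseChangeMaps (tensorMapLeft k ψ B₀) (tensorMapLeft k ψ B₁)
    (tensorMapLeft k ψ B₀₁) G G')

theorem pbc_map_xElt (x : B₀) :
    tensorMapLeft k ψ B₀₁ (xElt k B₀₁ A x) = xElt k B₀₁ A' x :=
  pbc_tensorMapLeft_one_tmul ψ _

theorem pbc_map_yElt (y : B₁) :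
    tensorMapLeft k ψ B₁ (yElt k A y) = yElt k A' y :=
  pbc_tensorMapLeft_one_tmul ψ _

/-- The base change maps intertwine the twisted Čech differentials. -/
theorem pbc_tcech (x : B₀) (n : ℕ) (p : G.N₀ × G.N₁) :
    bm.b₀₁ (tcech x n G p) = tcech x n G' (bm.b₀ p.1, bm.b₁ p.2) := by
  rw [tcech_apply, tcech_apply, map_sub, LinearMap.map_smulₛₗ, map_pow, pbc_map_xElt,
    bm.comm₀, bm.comm₁]

theorem pbc_mem_sec (x : B₀) (n : ℕ) {p : G.N₀ × G.N₁} (hp : p ∈ sec x n G) :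
    (bm.b₀ p.1, bm.b₁ p.2) ∈ sec x n G' := by
  rw [LinearMap.mem_ker] at hp ⊢
  rw [← pbc_tcech bm, hp, map_zero]

end TC

section PtIdeal

variable (A)

/-- The inclusion `B₀ → A ⊗ B₀` as a ring homomorphism. -/
def pbcIncl (B : Type u) [CommRing B] [Algebra k B] : B →+* A ⊗[k] B :=
  (Algebra.TensorProduct.includeRight : B →ₐ[k] A ⊗[k] B).toRingHom

theorem pbcIncl_apply (B : Type u) [CommRing B] [Algebra k B] (b : B) :
    pbcIncl (k := k) A B b = (1 : A) ⊗ₜ[k] b := rfl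

theorem pbc_sub_mem (q : B₀ →ₐ[k] k) (z : A ⊗[k] B₀) :
    z - algebraMap A (A ⊗[k] B₀) (ptHom q A z) ∈ (RingHom.ker q).map (pbcIncl (k := k) A B₀) := by
  induction z using TensorProduct.induction_on with
  | zero => simp
  | tmul a b =>
    have h0 : a ⊗ₜ[k] algebraMap k B₀ (q b) = (a * algebraMap k A (q b)) ⊗ₜ[k] (1 : B₀) := by
      rw [Algebra.algebraMap_eq_smul_one, TensorProduct.tmul_smul, TensorProduct.smul_tmul',
        Algebra.smul_def (q b) a, mul_comm]
    have h1 : a ⊗ₜ[k] b - algebraMap A (A ⊗[k] B₀) (ptHom q A (a ⊗ₜ[k] b)) =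
        (a ⊗ₜ[k] (1 : B₀)) * pbcIncl (k := k) A B₀ (b - algebraMap k B₀ (q b)) := by
      rw [ptHom_tmul, pbcIncl_apply, Algebra.TensorProduct.tmul_mul_tmul, mul_one, one_mul,
        TensorProduct.tmul_sub, h0]
      rfl
    rw [h1]
    refine Ideal.mul_mem_left _ _ (Ideal.mem_map_of_mem _ ?_)
    rw [RingHom.mem_ker, map_sub, AlgHom.commutes, sub_eq_zero]
    rfl
  | add z w hz hw =>
    have : z + w - algebraMap A (A ⊗[k] B₀) (ptHom q A (z + w)) =
        (z - algebraMap A (A ⊗[k] B₀) (ptHom q A z)) +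
          (w - algebraMap A (A ⊗[k] B₀) (ptHom q A w)) := by
      rw [map_add, map_add]; ring
    rw [this]
    exact Ideal.add_mem _ hz hw

theorem pbc_ker_ptHom (q : B₀ →ₐ[k] k) :
    RingHom.ker (ptHom q A) = (RingHom.ker q).map (pbcIncl (k := k) A B₀) := by
  apply le_antisymm
  · intro z hz
    have h := pbc_sub_mem A q z
    rw [RingHom.mem_ker] at hz
    rwa [hz, map_zero, sub_zero] at h
  · rw [Ideal.map_le_iff_le_comap]
    intro b hb
    rw [RingHom.mem_ker] at hb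
    rw [Ideal.mem_comap, RingHom.mem_ker, pbcIncl_apply, ptHom_tmul, hb, map_zero, mul_zero]

theorem pbc_ptIdeal_eq {m : ℕ} (q : Fin m → (B₀ →ₐ[k] k)) :
    ptIdeal q A = (∏ i, RingHom.ker (q i)).map (pbcIncl (k := k) A B₀) := by
  unfold ptIdeal
  have h := map_prod (Ideal.mapHom (pbcIncl (k := k) A B₀)) (fun i => RingHom.ker (q i))
    Finset.univ
  rw [Ideal.mapHom_apply] at h
  rw [h]
  refine Finset.prod_congr rfl fun i _ => ?_
  rw [Ideal.mapHom_apply, pbc_ker_ptHom]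

variable {A}

theorem pbc_tensorMapLeft_comp_incl (ψ : A →ₐ[k] A') (B : Type u) [CommRing B] [Algebra k B] :
    (tensorMapLeft k ψ B).comp (pbcIncl (k := k) A B) = pbcIncl (k := k) A' B := by
  ext b
  change ψ 1 ⊗ₜ[k] b = _
  rw [map_one]
  rfl

theorem pbc_map_ptIdeal (ψ : A →ₐ[k] A') {m : ℕ} (q : Fin m → (B₀ →ₐ[k] k)) :
    (ptIdeal q A).map (tensorMapLeft k ψ B₀) = ptIdeal q A' := by
  rw [pbc_ptIdeal_eq, pbc_ptIdeal_eq, Ideal.map_map, pbc_tensorMapLeft_comp_incl]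

theorem pbc_map_univIdeal (ψ : A →ₐ[k] A') {g : ℕ} (β : Fin g → B₀)
    (φ₀ : H491.Rβ k β →ₐ[k] A) :
    ((H491.univIdeal (k := k) β).map (H491.bc B₀ φ₀)).map (tensorMapLeft k ψ B₀) =
      (H491.univIdeal (k := k) β).map (H491.bc B₀ (ψ.comp φ₀)) := by
  change Ideal.map (tensorMapLeft k ψ B₀)
      (Ideal.map (H491.bc B₀ φ₀).toRingHom (H491.univIdeal (k := k) β)) =
    Ideal.map (H491.bc B₀ (ψ.comp φ₀)).toRingHom (H491.univIdeal (k := k) β)
  rw [Ideal.map_map]
  congr 1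
  refine RingHom.ext fun z => ?_
  change tensorMapLeft k ψ B₀ (H491.bc B₀ φ₀ z) = H491.bc B₀ (ψ.comp φ₀) z
  induction z using TensorProduct.induction_on with
  | zero => simp
  | tmul a b => rfl
  | add z w hz hw => rw [map_add, map_add, map_add, hz, hw]

end PtIdeal


section BaseChange

variable [Algebra A A'] [IsScalarTower k A A'] (ψ : A →ₐ[k] A')
  (hψ : ∀ a, ψ a = algebraMap A A' a)

section Generic

variable {B : Type u} [CommRing B] [Algebra k B]
  {N N' : Type u} [AddCommGroup N] [Module (A ⊗[k] B) N] [Module A N]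
  [IsScalarTower A (A ⊗[k] B) N]
  [AddCommGroup N'] [Module (A' ⊗[k] B) N'] [Module A' N'] [IsScalarTower A' (A' ⊗[k] B) N']
  (b : N →ₛₗ[tensorMapLeft k ψ B] N') (hb : IsSemilinearBaseChange (tensorMapLeft k ψ B) b)

include hψ hb in
/-- Induction principle: `N'` is spanned over `A'` by the image of `b`. -/
theorem pbc_induction {p : N' → Prop} (h0 : p 0) (hadd : ∀ u v, p u → p v → p (u + v))
    (hsmul : ∀ (s : A') (n : N), p (s • b n)) (n' : N') : p n' := by
  obtain ⟨E, hE⟩ := H550.exists_equiv_of_isSemilinearBaseChange_tensor ψ hψ B b hb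
  obtain ⟨z, rfl⟩ := E.surjective n'
  induction z using TensorProduct.induction_on with
  | zero => rw [map_zero]; exact h0
  | tmul s n => rw [hE]; exact hsmul s n
  | add z w hz hw => rw [map_add]; exact hadd _ _ hz hw

include hψ hb in
/-- Extension of submodules of the form `J • ⊤` generated by one element. -/
theorem pbc_span_singleton (J : Ideal (A ⊗[k] B)) (s : N)
    (hs : Submodule.span (A ⊗[k] B) {s} = J • (⊤ : Submodule (A ⊗[k] B) N)) :
    Submodule.span (A' ⊗[k] B) {b s} =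
      (J.map (tensorMapLeft k ψ B)) • (⊤ : Submodule (A' ⊗[k] B) N') := by
  apply le_antisymm
  · rw [Submodule.span_singleton_le_iff_mem]
    have hs' : s ∈ J • (⊤ : Submodule (A ⊗[k] B) N) := by
      rw [← hs]; exact Submodule.mem_span_singleton_self s
    refine Submodule.smul_induction_on hs' ?_ ?_
    · intro r hr n _
      rw [LinearMap.map_smulₛₗ]
      exact Submodule.smul_mem_smul (Ideal.mem_map_of_mem _ hr) Submodule.mem_top
    · intro u v hu hv
      rw [map_add]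
      exact Submodule.add_mem _ hu hv
  · rw [Submodule.smul_le]
    intro r' hr' n' _
    have key : ∀ n' : N', r' • n' ∈ Submodule.span (A' ⊗[k] B) {b s} := by
      refine Submodule.span_induction (p := fun r' _ => ∀ n' : N',
        r' • n' ∈ Submodule.span (A' ⊗[k] B) {b s}) ?_ ?_ ?_ ?_ hr'
      · rintro _ ⟨r, hr, rfl⟩ n'
        refine pbc_induction ψ hψ b hb (p := fun n' => tensorMapLeft k ψ B r • n' ∈
          Submodule.span (A' ⊗[k] B) {b s}) ?_ ?_ ?_ n'
        · rw [smul_zero]; exact Submodule.zero_mem _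
        · intro u v hu hv
          rw [smul_add]; exact Submodule.add_mem _ hu hv
        · intro c n
          rw [smul_comm, ← LinearMap.map_smulₛₗ]
          have hrn : r • n ∈ Submodule.span (A ⊗[k] B) {s} := by
            rw [hs]; exact Submodule.smul_mem_smul hr Submodule.mem_top
          obtain ⟨d, hd⟩ := Submodule.mem_span_singleton.1 hrn
          rw [← hd, LinearMap.map_smulₛₗ, ← algebraMap_smul (A' ⊗[k] B) c]
          exact Submodule.smul_mem _ _
            (Submodule.smul_mem _ _ (Submodule.mem_span_singleton_self _))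
      · intro n'
        rw [zero_smul]; exact Submodule.zero_mem _
      · intro r₁ r₂ _ _ h₁ h₂ n'
        rw [add_smul]; exact Submodule.add_mem _ (h₁ n') (h₂ n')
      · intro c r _ h n'
        rw [smul_eq_mul, mul_smul]
        exact Submodule.smul_mem _ _ (h n')
    exact key n'

/-- `b` maps `J • ⊤` into `J.map ρ • ⊤`. -/
theorem pbc_map_mem_smul (J : Ideal (A ⊗[k] B)) {n : N}
    (hn : n ∈ J • (⊤ : Submodule (A ⊗[k] B) N)) :
    b n ∈ (J.map (tensorMapLeft k ψ B)) • (⊤ : Submodule (A' ⊗[k] B) N') := by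
  refine Submodule.smul_induction_on hn ?_ ?_
  · intro r hr n _
    rw [LinearMap.map_smulₛₗ]
    exact Submodule.smul_mem_smul (Ideal.mem_map_of_mem _ hr) Submodule.mem_top
  · intro u v hu hv
    rw [map_add]
    exact Submodule.add_mem _ hu hv

end Generic

end BaseChange


section Datum

variable [Algebra A A'] [IsScalarTower k A A'] (ψ : A →ₐ[k] A')
  (hψ : ∀ a, ψ a = algebraMap A A' a)
  {G : CurveGD k B₀ B₁ B₀₁ A} {G' : CurveGD k B₀ B₁ B₀₁ A'}
  (bm : GlueDatum.BaseChangeMaps (tensorMapLeft k ψ B₀) (tensorMapLeft k ψ B₁)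
    (tensorMapLeft k ψ B₀₁) G G')

include hψ bm in
theorem pbc_P0 (x : B₀) (n : ℕ) (h0 : P0 x n G) : P0 x n G' := by
  intro c'
  refine pbc_induction ψ hψ bm.b₀₁ bm.isBaseChange₀₁
    (p := fun c' => ∃ p, tcech x n G' p = c') ⟨0, map_zero _⟩ ?_ ?_ c'
  · rintro u v ⟨p, rfl⟩ ⟨p', rfl⟩
    exact ⟨p + p', map_add _ _ _⟩
  · intro s c
    obtain ⟨p, rfl⟩ := h0 c
    exact ⟨s • (bm.b₀ p.1, bm.b₁ p.2), by rw [map_smul, ← pbc_tcech bm]⟩

theorem pbc_map_mem_vanq {m : ℕ} (q : Fin m → (B₀ →ₐ[k] k)) {a : G.N₀} (ha : a ∈ vanq q G) :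
    bm.b₀ a ∈ vanq q G' := by
  have := pbc_map_mem_smul ψ bm.b₀ (ptIdeal q A) ha
  rwa [pbc_map_ptIdeal] at this

theorem pbc_mem_secq (x : B₀) (n : ℕ) {m : ℕ} (q : Fin m → (B₀ →ₐ[k] k)) {p : G.N₀ × G.N₁}
    (hp : p ∈ secq x n q G) : (bm.b₀ p.1, bm.b₁ p.2) ∈ secq x n q G' :=
  ⟨pbc_mem_sec bm x n hp.1, pbc_map_mem_vanq ψ bm q hp.2⟩

include hψ bm in
theorem pbc_P1 (x : B₀) (n : ℕ) {m : ℕ} (q : Fin m → (B₀ →ₐ[k] k)) (h1 : P1 x n q G) :
    P1 x n q G' := by
  refine ⟨pbc_P0 ψ hψ bm x n h1.1, fun a' => ?_⟩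
  refine pbc_induction ψ hψ bm.b₀ bm.isBaseChange₀
    (p := fun a' => ∃ s ∈ sec x n G', a' - s.1 ∈ vanq q G') ?_ ?_ ?_ a'
  · exact ⟨0, Submodule.zero_mem _, by simp⟩
  · rintro u v ⟨s, hs, hu⟩ ⟨t, ht, hv⟩
    refine ⟨s + t, Submodule.add_mem _ hs ht, ?_⟩
    have : u + v - (s + t).1 = (u - s.1) + (v - t.1) := by
      rw [Prod.fst_add]; abel
    rw [this]
    exact Submodule.add_mem _ hu hv
  · intro c a
    obtain ⟨t, ht, hat⟩ := h1.2 a
    refine ⟨c • (bm.b₀ t.1, bm.b₁ t.2), Submodule.smul_mem _ _ (pbc_mem_sec bm x n ht), ?_⟩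
    have : c • bm.b₀ a - (c • (bm.b₀ t.1, bm.b₁ t.2)).1 = c • bm.b₀ (a - t.1) := by
      rw [Prod.smul_fst, map_sub, smul_sub]
    rw [this, ← algebraMap_smul (A' ⊗[k] B₀) c]
    exact Submodule.smul_mem _ _ (pbc_map_mem_vanq ψ bm q hat)

include hψ in
theorem pbc_genModY (y : B₁) {b : G.N₁} (hb : GenModY y G b) : GenModY y G' (bm.b₁ b) := by
  have hmap : (Ideal.span {yElt k A y}).map (tensorMapLeft k ψ B₁) =
      Ideal.span {yElt k A' y} := by
    rw [Ideal.map_span, Set.image_singleton, pbc_map_yElt]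
  intro c'
  refine pbc_induction ψ hψ bm.b₁ bm.isBaseChange₁
    (p := fun c' => ∃ r : A' ⊗[k] B₁, c' - r • bm.b₁ b ∈
      (Ideal.span {yElt k A' y} • ⊤ : Submodule (A' ⊗[k] B₁) G'.N₁)) ?_ ?_ ?_ c'
  · exact ⟨0, by simp⟩
  · rintro u v ⟨r, hr⟩ ⟨r', hr'⟩
    refine ⟨r + r', ?_⟩
    have : u + v - (r + r') • bm.b₁ b = (u - r • bm.b₁ b) + (v - r' • bm.b₁ b) := by
      rw [add_smul]; abel
    rw [this]
    exact Submodule.add_mem _ hr hr'
  · intro s c
    obtain ⟨r, hr⟩ := hb c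
    refine ⟨algebraMap A' (A' ⊗[k] B₁) s * tensorMapLeft k ψ B₁ r, ?_⟩
    have : s • bm.b₁ c - (algebraMap A' (A' ⊗[k] B₁) s * tensorMapLeft k ψ B₁ r) • bm.b₁ b =
        algebraMap A' (A' ⊗[k] B₁) s • bm.b₁ (c - r • b) := by
      rw [map_sub, LinearMap.map_smulₛₗ, smul_sub, mul_smul, algebraMap_smul, algebraMap_smul]
    rw [this]
    refine Submodule.smul_mem _ _ ?_
    have := pbc_map_mem_smul ψ bm.b₁ (Ideal.span {yElt k A y}) hr
    rwa [hmap] at this

end Datum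


section Kernel

variable [Algebra A A'] [IsScalarTower k A A'] (ψ : A →ₐ[k] A')
  (hψ : ∀ a, ψ a = algebraMap A A' a)
  {G : CurveGD k B₀ B₁ B₀₁ A} {G' : CurveGD k B₀ B₁ B₀₁ A'}
  (bm : GlueDatum.BaseChangeMaps (tensorMapLeft k ψ B₀) (tensorMapLeft k ψ B₁)
    (tensorMapLeft k ψ B₀₁) G G')

set_option maxHeartbeats 800000 in
include hψ in
/-- **Cohomology and base change** for `H⁰(G(nE₀ - Σq))` under `P1`: the sections over `A'`
are spanned by the images of the sections over `A`. -/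
theorem pbc_secq_span (x : B₀) (n : ℕ) {m : ℕ} (q : Fin m → (B₀ →ₐ[k] k)) (h1 : P1 x n q G)
    {t' : G'.N₀ × G'.N₁} (ht' : t' ∈ secq x n q G') :
    t' ∈ Submodule.span A' ((fun t : G.N₀ × G.N₁ => (bm.b₀ t.1, bm.b₁ t.2)) ''
      (secq x n q G : Set (G.N₀ × G.N₁))) := by
  obtain ⟨E₀, hE₀⟩ :=
    H550.exists_equiv_of_isSemilinearBaseChange_tensor ψ hψ B₀ bm.b₀ bm.isBaseChange₀
  obtain ⟨E₁, hE₁⟩ :=
    H550.exists_equiv_of_isSemilinearBaseChange_tensor ψ hψ B₁ bm.b₁ bm.isBaseChange₁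
  obtain ⟨E₀₁, hE₀₁⟩ :=
    H550.exists_equiv_of_isSemilinearBaseChange_tensor ψ hψ B₀₁ bm.b₀₁ bm.isBaseChange₀₁
  obtain ⟨E, hE⟩ : ∃ E : A' ⊗[A] (G.N₀ × G.N₁) ≃ₗ[A'] G'.N₀ × G'.N₁,
      ∀ (s : A') (p : G.N₀ × G.N₁), E (s ⊗ₜ[A] p) = (s • bm.b₀ p.1, s • bm.b₁ p.2) := by
    refine ⟨(TensorProduct.prodRight A A' A' G.N₀ G.N₁).trans (E₀.prodCongr E₁), ?_⟩
    rintro s ⟨a, b⟩
    simp [hE₀, hE₁]
  -- compatibility with the Čech differential
  have c1 : ∀ z, (E₀₁ : A' ⊗[A] G.N₀₁ →ₗ[A'] G'.N₀₁) ((tcech x n G).lTensor A' z) =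
      tcech x n G' (E z) := by
    intro z
    induction z using TensorProduct.induction_on with
    | zero => simp
    | tmul s p =>
      rw [LinearMap.lTensor_tmul, LinearEquiv.coe_coe, hE₀₁, hE, pbc_tcech bm, ← Prod.smul_mk,
        map_smul]
    | add z w hz hw => rw [map_add, map_add, map_add, map_add, hz, hw]
  -- compatibility with the first projection
  have cF : ∀ z, E₀ ((LinearMap.fst A G.N₀ G.N₁).lTensor A' z) = (E z).1 := by
    intro z
    induction z using TensorProduct.induction_on with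
    | zero => simp
    | tmul s p => rw [LinearMap.lTensor_tmul, hE₀, hE, LinearMap.fst_apply]
    | add z w hz hw => rw [map_add, map_add, map_add, Prod.fst_add, hz, hw]
  obtain ⟨Q, iQ, mQ, π, hπs, hπk⟩ := exists_quotient_map (A := A) (vanq q G)
  have hT₂ : ∀ c : Q, ∃ p : G.N₀ × G.N₁,
      tcech x n G p = 0 ∧ (π ∘ₗ LinearMap.fst A G.N₀ G.N₁) p = c := by
    intro c
    obtain ⟨a, ha⟩ := hπs c
    obtain ⟨s, hs, has⟩ := h1.2 a
    refine ⟨s, hs, ?_⟩
    rw [← ha]
    change π s.1 = π a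
    rw [eq_comm, ← sub_eq_zero, ← map_sub, hπk]
    exact has
  have h2 : (π ∘ₗ LinearMap.fst A G.N₀ G.N₁).lTensor A' (E.symm t') = 0 := by
    rw [LinearMap.lTensor_comp_apply]
    have e2 : (LinearMap.fst A G.N₀ G.N₁).lTensor A' (E.symm t') = E₀.symm t'.1 := by
      rw [LinearEquiv.eq_symm_apply, cF, LinearEquiv.apply_symm_apply]
    rw [e2]
    refine lTensor_eq_zero_of_mem_map_smul ψ bm.b₀ (ptIdeal q A) π ?_ E₀ hE₀ ?_
    · intro r hr n
      rw [hπk]
      exact Submodule.smul_mem_smul hr Submodule.mem_top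
    · rw [pbc_map_ptIdeal]
      exact ht'.2
  have key := kernel_span_of_surjective E (E₀₁ : A' ⊗[A] G.N₀₁ →ₗ[A'] G'.N₀₁) E₀₁.injective
    (tcech x n G) h1.1 (tcech x n G') c1 (π ∘ₗ LinearMap.fst A G.N₀ G.N₁) hT₂ ht'.1 h2
  refine Submodule.span_mono ?_ key
  rintro _ ⟨p, ⟨hp1, hp2⟩, rfl⟩
  refine ⟨p, ⟨hp1, ?_⟩, ?_⟩
  · change π p.1 = 0 at hp2
    rw [hπk] at hp2
    exact hp2
  · change _ = E ((1 : A') ⊗ₜ[A] p)
    rw [hE, one_smul, one_smul]

end Kernel


section Final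

variable [IsAlgClosed k] {x : B₀} {y : B₁} {e : B₁ →ₐ[k] k}

/-- **PT-BC**: the point conditions are compatible with base change, with Hilbert coordinates
`ψ ∘ φ₀`.  (The hypotheses `hC`, `hnum`, `hrig`, `hdeg` are not used.) -/
theorem pointCond_bc (hC : IsCurveChart k B₀ B₁ B₀₁ x y e) (i : ChartIndex k B₀)
    (hnum : i.Numeric B₀₁ y) {G : CurveGD k B₀ B₁ B₀₁ A} {G' : CurveGD k B₀ B₁ B₀₁ A'}
    (ψ : A →ₐ[k] A') (hbc : CurveGD.IsBC ψ G G') (hrig : G.Rigidifiable e) (hdeg : G.Deg0)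
    {φ₀ : H491.Rβ k i.β →ₐ[k] A} (h : PointCond x y i G φ₀) :
    PointCond x y i G' (ψ.comp φ₀) := by
  obtain ⟨bm⟩ := hbc
  letI : Algebra A A' := ψ.toRingHom.toAlgebra
  haveI : IsScalarTower k A A' := IsScalarTower.of_algebraMap_eq' ψ.comp_algebraMap.symm
  have hψ : ∀ a, ψ a = algebraMap A A' a := fun _ => rfl
  obtain ⟨s, hs, hspan⟩ := h.sect
  refine ⟨pbc_P1 ψ hψ bm x i.n i.q h.p1, ⟨(bm.b₀ s.1, bm.b₁ s.2),
    ⟨pbc_mem_secq ψ bm x i.n i.q hs.mem, ?_, pbc_genModY ψ hψ bm y hs.gen⟩, ?_⟩, ?_⟩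
  · -- the generator still spans
    intro t' ht'
    have hmem := pbc_secq_span ψ hψ bm x i.n i.q h.p1 ht'
    refine Submodule.span_induction (p := fun t' _ => ∃ a : A', t' = a • (bm.b₀ s.1, bm.b₁ s.2))
      ?_ ?_ ?_ ?_ hmem
    · rintro _ ⟨t, ht, rfl⟩
      obtain ⟨c, rfl⟩ := hs.span t ht
      refine ⟨ψ c, ?_⟩
      change (bm.b₀ (c • s.1), bm.b₁ (c • s.2)) = _
      rw [pbc_map_smul_base, pbc_map_smul_base, ← Prod.smul_mk]
    · exact ⟨0, by rw [zero_smul]⟩
    · rintro u v _ _ ⟨a, rfl⟩ ⟨b, rfl⟩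
      exact ⟨a + b, by rw [add_smul]⟩
    · rintro c u _ ⟨a, rfl⟩
      exact ⟨c * a, by rw [mul_smul]⟩
  · -- the divisor
    have := pbc_span_singleton ψ hψ bm.b₀ bm.isBaseChange₀ _ s.1 hspan
    rw [Ideal.map_mul, pbc_map_univIdeal, pbc_map_ptIdeal] at this
    exact this
  · exact h.unit.map ψ

end Final

end Fermat.Agent.S25.H371
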