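import Mathlib
import Fermat.Agent.S25.DefsAlg
import Fermat.Agent.S25.H371.SemilinearBC

/-!
# S25 / ALGDEF (helper371): gluing data lift along nilpotent surjections of cospans

`exists_glueDatum_lift`: for a morphism of cospans `(ρ₀, ρ₁, ρ₀₁)` whose three components are
surjective with nilpotent kernel, every gluing datum over the target cospan is a base change
of a gluing datum over the source cospan.  No hypothesis on the base rings `A`, `A'`.
-/

set_option autoImplicit false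
set_option linter.style.haveILetI false
open TensorProduct

namespace Fermat.Agent.S25.H371

universe u

section Restriction

variable {R R₀₁ S S₀₁ : Type u} [CommRing R] [CommRing R₀₁] [CommRing S] [CommRing S₀₁]
  [Algebra R R₀₁] [Algebra S S₀₁]

/-- **L5** lifting a restriction map: given lifts `N` of `P` (over the chart) and `N₀₁` of
`P₀₁` (over the intersection), the base-change map `r' : P → P₀₁` lifts to a base-change map
`r : N → N₀₁`. -/
theorem exists_restriction_lift (ρ : R →+* S) (ρ₀₁ : R₀₁ →+* S₀₁)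
    (hcomm : ∀ r, ρ₀₁ (algebraMap R R₀₁ r) = algebraMap S S₀₁ (ρ r))
    (hs : Function.Surjective ρ₀₁) (hn : IsNilpotent (RingHom.ker ρ₀₁))
    {N P N₀₁ P₀₁ : Type u} [AddCommGroup N] [Module R N] [Module.Projective R N]
    [AddCommGroup P] [Module S P]
    [AddCommGroup N₀₁] [Module R₀₁ N₀₁] [Module.Projective R₀₁ N₀₁]
    [AddCommGroup P₀₁] [Module S₀₁ P₀₁] [Module S P₀₁] [IsScalarTower S S₀₁ P₀₁]
    (b : N →ₛₗ[ρ] P) (hb : IsSemilinearBaseChange ρ b)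
    (r' : P →ₗ[S] P₀₁) (hr' : IsBaseChange S₀₁ r')
    (b₀₁ : N₀₁ →ₛₗ[ρ₀₁] P₀₁) (hb₀₁ : IsSemilinearBaseChange ρ₀₁ b₀₁) :
    ∃ r : N →ₛₗ[algebraMap R R₀₁] N₀₁, IsSemilinearBaseChange (algebraMap R R₀₁) r ∧
      ∀ n, b₀₁ (r n) = r' (b n) := by
  -- the tensor product model of the base change of `N`
  let mkS : N →ₛₗ[algebraMap R R₀₁] R₀₁ ⊗[R] N :=
    toSemilinear (S := R₀₁) (TensorProduct.mk R R₀₁ N 1)
  have hmkS : IsSemilinearBaseChange (algebraMap R R₀₁) mkS :=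
    isSemilinearBaseChange_toSemilinear _ (TensorProduct.isBaseChange R N R₀₁)
  have hr'S : IsSemilinearBaseChange (algebraMap S S₀₁) (toSemilinear (S := S₀₁) r') :=
    isSemilinearBaseChange_toSemilinear _ hr'
  -- the composite `N → P → P₀₁`
  let d : N →ₛₗ[ρ₀₁.comp (algebraMap R R₀₁)] P₀₁ :=
    { toFun := fun n => r' (b n)
      map_add' := fun m n => by rw [map_add, map_add]
      map_smul' := fun a n => by
        rw [LinearMap.map_smulₛₗ, r'.map_smul, RingHom.comp_apply, hcomm, algebraMap_smul] }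
  have hd : IsSemilinearBaseChange (ρ₀₁.comp (algebraMap R R₀₁)) d :=
    isSemilinearBaseChange_comp ρ (algebraMap S S₀₁) _ (fun r => hcomm r) b
      (toSemilinear (S := S₀₁) r') d (fun _ => rfl) hb hr'S
  obtain ⟨c, hc⟩ := exists_semilinear_lift (algebraMap R R₀₁) ρ₀₁ _ (fun _ => rfl) mkS hmkS d
  have hcbc : IsSemilinearBaseChange ρ₀₁ c :=
    isSemilinearBaseChange_of_comp (algebraMap R R₀₁) ρ₀₁ _ (fun _ => rfl) mkS c d
      (fun n => (hc n).symm) hmkS hd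
  obtain ⟨φ, hφ⟩ := exists_linearEquiv_of_isSemilinearBaseChange ρ₀₁ hs hn c b₀₁ hcbc hb₀₁
  let r : N →ₛₗ[algebraMap R R₀₁] N₀₁ :=
    { toFun := fun n => φ (mkS n)
      map_add' := fun m n => by rw [map_add, map_add]
      map_smul' := fun a n => by rw [LinearMap.map_smulₛₗ, φ.map_smul] }
  refine ⟨r, isSemilinearBaseChange_equiv_comp _ mkS φ r (fun _ => rfl) hmkS, fun n => ?_⟩
  change b₀₁ (φ (mkS n)) = r' (b n)
  rw [hφ, hc]
  rfl

end Restriction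

section Lift

variable {A R₀ R₁ R₀₁ : Type u} [CommRing A] [CommRing R₀] [CommRing R₁]
    [CommRing R₀₁] [Algebra A R₀] [Algebra A R₁] [Algebra A R₀₁] [Algebra R₀ R₀₁]
    [Algebra R₁ R₀₁] [IsScalarTower A R₀ R₀₁] [IsScalarTower A R₁ R₀₁]
    {A' R₀' R₁' R₀₁' : Type u} [CommRing A'] [CommRing R₀'] [CommRing R₁']
    [CommRing R₀₁'] [Algebra A' R₀'] [Algebra A' R₁'] [Algebra A' R₀₁'] [Algebra R₀' R₀₁']
    [Algebra R₁' R₀₁'] [IsScalarTower A' R₀' R₀₁'] [IsScalarTower A' R₁' R₀₁']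

/-- **ALGDEF, general form**: gluing data lift along a morphism of cospans whose components
are surjective with nilpotent kernels. -/
theorem exists_glueDatum_lift (ρ₀ : R₀ →+* R₀') (ρ₁ : R₁ →+* R₁') (ρ₀₁ : R₀₁ →+* R₀₁')
    (h₀ : ∀ r, ρ₀₁ (algebraMap R₀ R₀₁ r) = algebraMap R₀' R₀₁' (ρ₀ r))
    (h₁ : ∀ r, ρ₀₁ (algebraMap R₁ R₀₁ r) = algebraMap R₁' R₀₁' (ρ₁ r))
    (hs₀ : Function.Surjective ρ₀) (hn₀ : IsNilpotent (RingHom.ker ρ₀))
    (hs₁ : Function.Surjective ρ₁) (hn₁ : IsNilpotent (RingHom.ker ρ₁))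
    (hs₀₁ : Function.Surjective ρ₀₁) (hn₀₁ : IsNilpotent (RingHom.ker ρ₀₁))
    (G' : GlueDatum A' R₀' R₁' R₀₁') :
    ∃ G : GlueDatum A R₀ R₁ R₀₁, GlueDatum.IsBC ρ₀ ρ₁ ρ₀₁ G G' := by
  haveI := G'.invertible₀
  haveI := G'.invertible₁
  -- `G'.N₀₁` is invertible over `R₀₁'`
  haveI hinv₀₁ : Module.Invertible R₀₁' G'.N₀₁ :=
    Module.Invertible.congr (G'.isBaseChange₀.equiv)
  -- lifts of the three modules
  obtain ⟨N₀, i₀, j₀, hN₀, b₀, hb₀⟩ := exists_invertible_semilinear_lift ρ₀ hs₀ hn₀ G'.N₀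
  obtain ⟨N₁, i₁, j₁, hN₁, b₁, hb₁⟩ := exists_invertible_semilinear_lift ρ₁ hs₁ hn₁ G'.N₁
  obtain ⟨N₀₁, i₀₁, j₀₁, hN₀₁, b₀₁, hb₀₁⟩ :=
    exists_invertible_semilinear_lift ρ₀₁ hs₀₁ hn₀₁ G'.N₀₁
  -- lifts of the restriction maps
  obtain ⟨r₀, hr₀, hr₀c⟩ := exists_restriction_lift ρ₀ ρ₀₁ h₀ hs₀₁ hn₀₁ b₀ hb₀ G'.r₀
    G'.isBaseChange₀ b₀₁ hb₀₁
  obtain ⟨r₁, hr₁, hr₁c⟩ := exists_restriction_lift ρ₁ ρ₀₁ h₁ hs₀₁ hn₀₁ b₁ hb₁ G'.r₁
    G'.isBaseChange₁ b₀₁ hb₀₁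
  -- module structures by restriction of scalars
  letI mL : Module R₀ N₀₁ := Module.compHom N₀₁ (algebraMap R₀ R₀₁)
  letI mR : Module R₁ N₀₁ := Module.compHom N₀₁ (algebraMap R₁ R₀₁)
  letI m₀ : Module A N₀ := Module.compHom N₀ (algebraMap A R₀)
  letI m₁ : Module A N₁ := Module.compHom N₁ (algebraMap A R₁)
  letI m₀₁ : Module A N₀₁ := Module.compHom N₀₁ (algebraMap A R₀₁)
  haveI tL : IsScalarTower R₀ R₀₁ N₀₁ := IsScalarTower.of_algebraMap_smul fun _ _ => rfl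
  haveI tR : IsScalarTower R₁ R₀₁ N₀₁ := IsScalarTower.of_algebraMap_smul fun _ _ => rfl
  haveI t₀ : IsScalarTower A R₀ N₀ := IsScalarTower.of_algebraMap_smul fun _ _ => rfl
  haveI t₁ : IsScalarTower A R₁ N₁ := IsScalarTower.of_algebraMap_smul fun _ _ => rfl
  haveI t₀₁ : IsScalarTower A R₀₁ N₀₁ := IsScalarTower.of_algebraMap_smul fun _ _ => rfl
  let f₀ : N₀ →ₗ[R₀] N₀₁ :=
    { toFun := fun n => r₀ n
      map_add' := fun m n => r₀.map_add m n
      map_smul' := fun a n => LinearMap.map_smulₛₗ r₀ a n }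
  let f₁ : N₁ →ₗ[R₁] N₀₁ :=
    { toFun := fun n => r₁ n
      map_add' := fun m n => r₁.map_add m n
      map_smul' := fun a n => LinearMap.map_smulₛₗ r₁ a n }
  have hf₀ : IsBaseChange R₀₁ f₀ :=
    isBaseChange_of_isSemilinearBaseChange _ (fun _ => rfl) r₀ hr₀ f₀ (fun _ => rfl)
  have hf₁ : IsBaseChange R₀₁ f₁ :=
    isBaseChange_of_isSemilinearBaseChange _ (fun _ => rfl) r₁ hr₁ f₁ (fun _ => rfl)
  refine ⟨{ N₀ := N₀, N₁ := N₁, N₀₁ := N₀₁
            addCommGroup₀ := i₀, addCommGroup₁ := i₁, addCommGroup₀₁ := i₀₁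
            module₀ := j₀, module₁ := j₁, module₀₁ := j₀₁
            moduleL := mL, moduleR := mR, towerL := tL, towerR := tR
            baseModule₀ := m₀, baseModule₁ := m₁, baseModule₀₁ := m₀₁
            baseTower₀ := t₀, baseTower₁ := t₁, baseTower₀₁ := t₀₁
            r₀ := f₀, r₁ := f₁
            isBaseChange₀ := hf₀, isBaseChange₁ := hf₁
            invertible₀ := hN₀, invertible₁ := hN₁ }, ⟨?_⟩⟩
  exact
    { b₀ := b₀, b₁ := b₁, b₀₁ := b₀₁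
      comm₀ := hr₀c, comm₁ := hr₁c
      isBaseChange₀ := hb₀, isBaseChange₁ := hb₁, isBaseChange₀₁ := hb₀₁ }

end Lift

end Fermat.Agent.S25.H371
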