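import Mathlib
import Fermat.Agent.S25.DefsAlg
import Fermat.Agent.S25.H371.GlueLift

/-!
# S25 / block ALGDEF (helper371): `Stmt.AlgDef`

Gluing data on `C_{A/I}` lift to `C_A` for every nilpotent ideal `I` (in particular `I² = 0`).
The curve-chart hypothesis is not used.
-/

set_option autoImplicit false
open TensorProduct

namespace Fermat.Agent.S25.H371

universe u

section

variable (k : Type u) [Field k]

theorem tensorMapLeft_tmul {A A' : Type u} [CommRing A] [Algebra k A] [CommRing A']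
    [Algebra k A'] (φ : A →ₐ[k] A') (B : Type u) [CommRing B] [Algebra k B] (a : A) (b : B) :
    tensorMapLeft k φ B (a ⊗ₜ[k] b) = φ a ⊗ₜ[k] b := rfl

theorem tensorMapLeft_surjective {A A' : Type u} [CommRing A] [Algebra k A] [CommRing A']
    [Algebra k A'] (φ : A →ₐ[k] A') (hφ : Function.Surjective φ) (B : Type u) [CommRing B]
    [Algebra k B] : Function.Surjective (tensorMapLeft k φ B) :=
  Algebra.TensorProduct.map_surjective φ (AlgHom.id k B) hφ Function.surjective_id

theorem ker_tensorMapLeft {A A' : Type u} [CommRing A] [Algebra k A] [CommRing A']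
    [Algebra k A'] (φ : A →ₐ[k] A') (hφ : Function.Surjective φ) (B : Type u) [CommRing B]
    [Algebra k B] :
    RingHom.ker (tensorMapLeft k φ B) =
      (RingHom.ker φ).map (Algebra.TensorProduct.includeLeft : A →ₐ[k] A ⊗[k] B) :=
  Algebra.TensorProduct.rTensor_ker (R := k) (S := k) (C := B) φ hφ

theorem isNilpotent_ker_tensorMapLeft {A A' : Type u} [CommRing A] [Algebra k A] [CommRing A']
    [Algebra k A'] (φ : A →ₐ[k] A') (hφ : Function.Surjective φ)
    (hn : IsNilpotent (RingHom.ker φ)) (B : Type u) [CommRing B] [Algebra k B] :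
    IsNilpotent (RingHom.ker (tensorMapLeft k φ B)) := by
  obtain ⟨n, hn⟩ := hn
  refine ⟨n, ?_⟩
  rw [ker_tensorMapLeft k φ hφ B, ← Ideal.map_pow, hn]
  exact Ideal.map_bot

theorem tensorMapLeft_algebraMap {A A' : Type u} [CommRing A] [Algebra k A] [CommRing A']
    [Algebra k A'] (φ : A →ₐ[k] A') (B B' : Type u) [CommRing B] [Algebra k B] [CommRing B']
    [Algebra k B'] [Algebra B B'] [IsScalarTower k B B'] (r : A ⊗[k] B) :
    tensorMapLeft k φ B' (algebraMap (A ⊗[k] B) (A ⊗[k] B') r) =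
      algebraMap (A' ⊗[k] B) (A' ⊗[k] B') (tensorMapLeft k φ B r) := by
  induction r using TensorProduct.induction_on with
  | zero => simp
  | tmul a b => rfl
  | add x y hx hy => rw [map_add, map_add, map_add, map_add, hx, hy]

variable (B₀ B₁ B₀₁ : Type u) [CommRing B₀] [CommRing B₁] [CommRing B₀₁]
  [Algebra k B₀] [Algebra k B₁] [Algebra k B₀₁] [Algebra B₀ B₀₁] [Algebra B₁ B₀₁]
  [IsScalarTower k B₀ B₀₁] [IsScalarTower k B₁ B₀₁]

/-- Gluing data lift along any surjection `φ : A → A'` of `k`-algebras with nilpotent kernel. -/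
theorem exists_curveGD_lift {A A' : Type u} [CommRing A] [Algebra k A] [CommRing A']
    [Algebra k A'] (φ : A →ₐ[k] A') (hφ : Function.Surjective φ)
    (hn : IsNilpotent (RingHom.ker φ)) (G₀ : CurveGD k B₀ B₁ B₀₁ A') :
    ∃ G : CurveGD k B₀ B₁ B₀₁ A, CurveGD.IsBC φ G G₀ :=
  exists_glueDatum_lift (tensorMapLeft k φ B₀) (tensorMapLeft k φ B₁) (tensorMapLeft k φ B₀₁)
    (tensorMapLeft_algebraMap k φ B₀ B₀₁) (tensorMapLeft_algebraMap k φ B₁ B₀₁)
    (tensorMapLeft_surjective k φ hφ B₀) (isNilpotent_ker_tensorMapLeft k φ hφ hn B₀)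
    (tensorMapLeft_surjective k φ hφ B₁) (isNilpotent_ker_tensorMapLeft k φ hφ hn B₁)
    (tensorMapLeft_surjective k φ hφ B₀₁) (isNilpotent_ker_tensorMapLeft k φ hφ hn B₀₁) G₀

/-- **ALGDEF**: the frozen statement `Stmt.AlgDef`. -/
theorem algDef : Stmt.AlgDef k B₀ B₁ B₀₁ := by
  intro x y e _ A _ _ I hI G₀
  refine exists_curveGD_lift k B₀ B₁ B₀₁ (Ideal.Quotient.mkₐ k I)
    (Ideal.Quotient.mkₐ_surjective k I) ⟨2, ?_⟩ G₀
  have hker : RingHom.ker (Ideal.Quotient.mkₐ k I) = I := by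
    ext a
    rw [RingHom.mem_ker]
    exact Ideal.Quotient.eq_zero_iff_mem
  rw [hker, hI]
  rfl

end

end Fermat.Agent.S25.H371
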